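import Fermat.Agent.Jac.Rep.DegCond
import Fermat.Agent.Jac.Euler.Degree
import Fermat.Agent.Jac.Chart.Invertible

/-!
# Degree zero over finitely generated algebras is tested at `k`-points
-/

set_option autoImplicit false

noncomputable section

universe u

namespace Fermat.Agent.Jac

variable {k : Type u} [Field k] [IsAlgClosed k] {D : CurveData.{u} k}
variable {R : Type u} [CommRing R] [Algebra k R]

omit [IsAlgClosed k] in
theorem degZero_mem_iff (x : LinePic D k) : (degZero D).mem k x ↔ LinePic.deg x = 0 :=
  sub_eq_zero.symm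

/-- Over a finitely generated algebra degree zero is tested at `k`-points. -/
theorem onFibres_degZero_of_points [Algebra.FiniteType k R] (x : LinePic D R)
    (h : ∀ φ : R →ₐ[k] k, (degZero D).mem k (LinePic.map φ x)) : (degZero D).OnFibres x := by
  intro K _ _ ψ
  let d₀ := LinePic.χ (1 : LinePic D k)
  have hcl : ∀ q : PrimeSpectrum R, LinePic.degree x q = d₀ := by
    intro q
    obtain ⟨𝔫, h𝔫, hle⟩ := Ideal.exists_le_maximal q.asIdeal q.2.ne_top
    obtain ⟨φ, hφ⟩ := Chart.exists_point (k := k) 𝔫
    let z : PrimeSpectrum R := ⟨𝔫, h𝔫.isPrime⟩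
    have hz : LinePic.degree x z = d₀ := by
      rw [← LinePic.χ_map φ x (q := z) hφ.symm]
      exact h φ
    have hc : IsClosed {p | LinePic.degree x p = d₀} :=
      (LinePic.isLocallyConstant_degree x).isClosed_fiber d₀
    have ho : IsOpen {p | LinePic.degree x p = d₀} :=
      (LinePic.isLocallyConstant_degree x).isOpen_fiber d₀
    exact ((PrimeSpectrum.le_iff_specializes q z).mp hle).mem_open ho hz
  show LinePic.χ _ = d₀
  rw [LinePic.χ_map ψ x (q := ⟨RingHom.ker ψ, RingHom.ker_isPrime _⟩) rfl]
  exact hcl _

/-- Degree zero is closed under products and inverses over finitely generated algebras. -/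
theorem onFibres_degZero_mul_inv [Algebra.FiniteType k R] {x y : LinePic D R}
    (hx : (degZero D).OnFibres x) (hy : (degZero D).OnFibres y) :
    (degZero D).OnFibres (x * y⁻¹) :=
  onFibres_degZero_of_points _ fun φ => by
    rw [degZero_mem_iff, map_mul, map_inv, LinePic.deg_mul, LinePic.deg_inv,
      (degZero_mem_iff _).mp (hx k φ), (degZero_mem_iff _).mp (hy k φ)]
    ring

end Fermat.Agent.Jac
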