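import Fermat.Agent.Jac.Sheaf.BaseChart

/-!
# Morphisms from a scheme over a field are natural families on its affine points
-/

set_option autoImplicit false

noncomputable section

universe u

open CategoryTheory CategoryTheory.Limits AlgebraicGeometry NeronModelInfra AlgebraicGeometry.RelPicard

namespace Fermat.Agent.Jac

variable {k : Type u} [Field k] {T Y : Scheme.{u}} {t : T ⟶ Spec (CommRingCat.of k)}
  {y : Y ⟶ Spec (CommRingCat.of k)}

/-- Two morphisms are equal when they agree on affine points. -/
theorem hom_ext_of_affine_points {a b : SchemeHomOver t y}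
    (h : ∀ (R : Type u) [CommRing R] [Algebra k R] (s : SchemeHomOver (structMap k R) t),
      postComp a s = postComp b s) : a = b := by
  refine Subtype.ext (T.affineCover.hom_ext _ _ fun i => ?_)
  obtain ⟨S, g, hg⟩ : ∃ (S : CommRingCat.{u}) (g : Spec S ⟶ T),
      (∀ p q : T ⟶ Y, g ≫ p = g ≫ q → T.affineCover.f i ≫ p = T.affineCover.f i ≫ q) :=
    ⟨_, T.affineCover.f i, fun _ _ e => e⟩
  let : Algebra k S := (Spec.preimage (g ≫ t)).hom.toAlgebra
  exact hg _ _ (congrArg Subtype.val (h S ⟨g, (Spec.map_preimage _).symm⟩))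

/-- A natural family on affine points. -/
structure PointFamily (t : T ⟶ Spec (CommRingCat.of k)) (y : Y ⟶ Spec (CommRingCat.of k)) :
    Type (u + 1) where
  app : ∀ (R : Type u) [CommRing R] [Algebra k R],
    SchemeHomOver (structMap k R) t → SchemeHomOver (structMap k R) y
  natural : ∀ (R R' : Type u) [CommRing R] [Algebra k R] [CommRing R'] [Algebra k R']
    (φ : R →ₐ[k] R') (s : SchemeHomOver (structMap k R) t),
    app R' (postComp s (specHomOver φ)) = postComp (app R s) (specHomOver φ)

namespace PointFamily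

variable (F : PointFamily t y)

/-- The family at a morphism from an affine scheme. -/
def at' {S : CommRingCat.{u}} (g : Spec S ⟶ T) : Spec S ⟶ Y :=
  let : Algebra k S := (Spec.preimage (g ≫ t)).hom.toAlgebra
  (F.app S ⟨g, (Spec.map_preimage _).symm⟩).1

theorem app_congr (R : Type u) [CommRing R] (a a' : Algebra k R) (ha : a = a')
    (s : letI := a; SchemeHomOver (structMap k R) t)
    (s' : letI := a'; SchemeHomOver (structMap k R) t) (h : s.1 = s'.1) :
    (letI := a; (F.app R s).1) = (letI := a'; (F.app R s').1) := by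
  subst ha
  rw [Subtype.ext h]

theorem at'_eq (R : Type u) [CommRing R] [inst : Algebra k R] (s : SchemeHomOver (structMap k R) t) :
    F.at' (S := CommRingCat.of R) s.1 = (F.app R s).1 := by
  have h : (Spec.preimage (s.1 ≫ t)).hom.toAlgebra = inst := by
    refine Algebra.algebra_ext _ _ fun r => ?_
    have h1 : Spec.preimage (s.1 ≫ t) = CommRingCat.ofHom (algebraMap k R) :=
      Spec.map_injective (by rw [Spec.map_preimage]; exact s.2)
    exact congrArg (fun f => f.hom r) h1
  exact F.app_congr R _ inst h ⟨s.1, (Spec.map_preimage _).symm⟩ s rfl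

theorem at'_comp {S S' : CommRingCat.{u}} (g : Spec S ⟶ T) (h : Spec S' ⟶ Spec S) :
    F.at' (h ≫ g) = h ≫ F.at' g := by
  let a : Algebra k S := (Spec.preimage (g ≫ t)).hom.toAlgebra
  let a' : Algebra k S' := (Spec.preimage ((h ≫ g) ≫ t)).hom.toAlgebra
  let φ : S →ₐ[k] S' :=
    { (Spec.preimage h).hom with
      commutes' := fun r => by
        have h1 : Spec.preimage (g ≫ t) ≫ Spec.preimage h = Spec.preimage ((h ≫ g) ≫ t) :=
          Spec.map_injective (by
            rw [Spec.map_comp, Spec.map_preimage, Spec.map_preimage, Spec.map_preimage,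
              Category.assoc])
        exact congrArg (fun f => f.hom r) h1 }
  have hφ : (specHomOver φ).1 = h := Spec.map_preimage h
  let s : SchemeHomOver (structMap k S) t := ⟨g, (Spec.map_preimage _).symm⟩
  have e : (⟨h ≫ g, (Spec.map_preimage _).symm⟩ : SchemeHomOver (structMap k S') t) =
      postComp s (specHomOver φ) := Subtype.ext (by show h ≫ g = _ ≫ g; rw [hφ])
  show (F.app S' ⟨h ≫ g, _⟩).1 = h ≫ (F.app S s).1
  rw [e, F.natural]
  show (specHomOver φ).1 ≫ _ = _
  rw [hφ]

theorem exists_hom : ∃ g : SchemeHomOver t y,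
    ∀ (R : Type u) [CommRing R] [Algebra k R] (s : SchemeHomOver (structMap k R) t),
      postComp g s = F.app R s := by
  have hy : ∀ {S : CommRingCat.{u}} (g : Spec S ⟶ T), F.at' g ≫ y = g ≫ t := by
    intro S g
    let : Algebra k S := (Spec.preimage (g ≫ t)).hom.toAlgebra
    show (F.app S ⟨g, _⟩).1 ≫ y = _
    rw [(F.app S ⟨g, (Spec.map_preimage _).symm⟩).2]
    exact Spec.map_preimage _
  let G : T ⟶ Y := T.affineCover.glueMorphisms (fun i => F.at' (T.affineCover.f i)) fun i j => by
    refine (pullback (T.affineCover.f i) (T.affineCover.f j)).affineCover.hom_ext _ _ fun l => ?_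
    rw [← Category.assoc, ← Category.assoc]
    refine (F.at'_comp _ _).symm.trans (Eq.trans (congrArg F.at' ?_) (F.at'_comp _ _))
    exact (Category.assoc _ _ _).trans
      ((congrArg (fun e => _ ≫ e) pullback.condition).trans (Category.assoc _ _ _).symm)
  have hG : ∀ {S : CommRingCat.{u}} (g : Spec S ⟶ T), g ≫ G = F.at' g := by
    intro S g
    refine Scheme.Cover.hom_ext (T.affineCover.pullback₁ g) _ _ fun i => ?_
    refine (pullback g (T.affineCover.f i)).affineCover.hom_ext _ _ fun l => ?_
    let a := (pullback g (T.affineCover.f i)).affineCover.f l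
    let b := pullback.fst g (T.affineCover.f i)
    let b' := pullback.snd g (T.affineCover.f i)
    show a ≫ b ≫ g ≫ G = a ≫ b ≫ F.at' g
    have e1 : a ≫ b ≫ g = a ≫ b' ≫ T.affineCover.f i := congrArg (fun e => a ≫ e) pullback.condition
    refine Eq.trans (by simp only [Category.assoc]) ((congrArg (fun e => e ≫ G) e1).trans ?_)
    refine Eq.trans (Category.assoc _ _ _) ?_
    refine Eq.trans (congrArg (fun e => a ≫ e) ((Category.assoc _ _ _).trans
      (congrArg (fun e => b' ≫ e) (T.affineCover.ι_glueMorphisms _ _ i)))) ?_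
    refine Eq.trans (Category.assoc _ _ _).symm ?_
    refine Eq.trans (F.at'_comp (T.affineCover.f i) (a ≫ b')).symm ?_
    refine Eq.trans (congrArg F.at'
      ((Category.assoc _ _ _).trans (e1.symm.trans (Category.assoc a b g).symm))) ?_
    exact (F.at'_comp g (a ≫ b)).trans (Category.assoc _ _ _)
  refine ⟨⟨G, T.affineCover.hom_ext _ _ fun i => ?_⟩, fun R _ _ s => Subtype.ext ?_⟩
  · rw [← Category.assoc, T.affineCover.ι_glueMorphisms]
    exact hy _
  · exact (hG (S := CommRingCat.of R) s.1).trans (F.at'_eq R s)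

end PointFamily

end Fermat.Agent.Jac
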