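import Fermat.Agent.Jac.Sheaf.Compare
import Fermat.Agent.Jac.Sheaf.BaseChange
import Fermat.Agent.Jac.Sheaf.OfLineData
import Fermat.Agent.Jac.Alg.Rigid

/-!
# The class of a rigidified line bundle at an affine point of the base
-/

set_option autoImplicit false

noncomputable section

universe u

open CategoryTheory CategoryTheory.Limits AlgebraicGeometry NeronModelInfra AlgebraicGeometry.RelPicard

namespace Fermat.Agent.Jac.CurveModel

variable {k : Type u} [Field k] {C : Scheme.{u}} {c : C ⟶ Spec (CommRingCat.of k)}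
  {ε : SchemeHomOver (𝟙 (Spec (CommRingCat.of k))) c}
variable (m : CurveModel c ε)
variable {T T' : Scheme.{u}} {t : T ⟶ Spec (CommRingCat.of k)} {t' : T' ⟶ Spec (CommRingCat.of k)}
variable {R R' : Type u} [CommRing R] [Algebra k R] [CommRing R'] [Algebra k R']

/-- The class of an invertible sheaf on `C × Spec R`. -/
def picClass (L : (pullback c (structMap k R)).Modules) (hL : Scheme.Modules.IsInvertible L) :
    LinePic m.D R :=
  LinePic.mk (m.toLineData L hL)

theorem picClass_eq_iff {L L' : (pullback c (structMap k R)).Modules}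
    (hL : Scheme.Modules.IsInvertible L) (hL' : Scheme.Modules.IsInvertible L') :
    m.picClass L hL = m.picClass L' hL' ↔ Nonempty (L ≅ L') :=
  LinePic.mk_eq_mk.trans (m.nonempty_iso_iff hL hL').symm

theorem map_picClass (φ : R →ₐ[k] R') {L : (pullback c (structMap k R)).Modules}
    (hL : Scheme.Modules.IsInvertible L) :
    LinePic.map φ (m.picClass L hL) =
      m.picClass ((Scheme.Modules.pullback (baseChangeSnd c (specHomOver φ))).obj L)
        (hL.pullback _) :=
  LinePic.map_mk (m.toLineDataPullback hL φ)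

theorem exists_picClass_eq (x : LinePic m.D R) :
    ∃ (L : (pullback c (structMap k R)).Modules) (hL : Scheme.Modules.IsInvertible L),
      m.picClass L hL = x := by
  obtain ⟨L, rfl⟩ := LinePic.mk_surjective x
  obtain ⟨L', hL', e⟩ := m.exists_toLineData_iso L
  exact ⟨L', hL', LinePic.mk_eq_mk.mpr e⟩

/-- The class of a rigidified line bundle at a point of the base with values in `R`. -/
def classAt (M : RigidifiedLineBundle c ε t) (s : SchemeHomOver (structMap k R) t) :
    LinePic m.D R :=
  m.picClass (M.pullbackAlong s).L (M.pullbackAlong s).isInvertible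

theorem classAt_congr {M M' : RigidifiedLineBundle c ε t} (h : Nonempty (M.L ≅ M'.L))
    (s : SchemeHomOver (structMap k R) t) : m.classAt M s = m.classAt M' s :=
  (m.picClass_eq_iff _ _).mpr (RigidifiedLineBundle.pullbackAlong_congr s h)

theorem nonempty_pullbackAlong_comp (M : RigidifiedLineBundle c ε t) (ψ : SchemeHomOver t' t)
    {T'' : Scheme.{u}} {t'' : T'' ⟶ Spec (CommRingCat.of k)} (χ : SchemeHomOver t'' t') :
    Nonempty (((M.pullbackAlong ψ).pullbackAlong χ).L ≅ (M.pullbackAlong (postComp ψ χ)).L) :=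
  ⟨(Scheme.Modules.pullbackComp _ _).app M.L ≪≫
    (Scheme.Modules.pullbackCongr (baseChangeSnd_comp c ψ χ)).app M.L⟩

theorem classAt_pullbackAlong (M : RigidifiedLineBundle c ε t) (ψ : SchemeHomOver t' t)
    (s : SchemeHomOver (structMap k R) t') :
    m.classAt (M.pullbackAlong ψ) s = m.classAt M (postComp ψ s) :=
  (m.picClass_eq_iff _ _).mpr (nonempty_pullbackAlong_comp M ψ s)

theorem map_classAt (M : RigidifiedLineBundle c ε t) (s : SchemeHomOver (structMap k R) t)
    (φ : R →ₐ[k] R') :
    LinePic.map φ (m.classAt M s) = m.classAt M (postComp s (specHomOver φ)) := by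
  rw [classAt, map_picClass]
  exact (m.picClass_eq_iff _ _).mpr (nonempty_pullbackAlong_comp M s (specHomOver φ))

theorem classAt_mem_rigid (M : RigidifiedLineBundle c ε t) (s : SchemeHomOver (structMap k R) t) :
    m.classAt M s ∈ LinePic.rigid m.D R :=
  LinePic.mk_mem_rigid_iff.mpr
    ((m.nonempty_rig_iso_iff (M.pullbackAlong s).isInvertible).mp (M.pullbackAlong s).rigidified)

/-- The identity point of an affine base. -/
def idPoint (k R : Type u) [Field k] [CommRing R] [Algebra k R] :
    SchemeHomOver (structMap k R) (structMap k R) :=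
  ⟨𝟙 _, Category.id_comp _⟩

theorem nonempty_pullbackAlong_id (M : RigidifiedLineBundle c ε t) :
    Nonempty ((M.pullbackAlong ⟨𝟙 T, Category.id_comp t⟩).L ≅ M.L) :=
  ⟨(Scheme.Modules.pullbackCongr (baseChangeSnd_id c t)).app M.L ≪≫
    (Scheme.Modules.pullbackId _).app M.L⟩

theorem classAt_idPoint (M : RigidifiedLineBundle c ε (structMap k R)) :
    m.classAt M (idPoint k R) = m.picClass M.L M.isInvertible :=
  (m.picClass_eq_iff _ _).mpr (nonempty_pullbackAlong_id M)

theorem exists_classAt_eq {x : LinePic m.D R} (hx : x ∈ LinePic.rigid m.D R) :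
    ∃ M : RigidifiedLineBundle c ε (structMap k R), m.classAt M (idPoint k R) = x := by
  obtain ⟨L, hL, rfl⟩ := m.exists_picClass_eq x
  obtain ⟨K, hK, hKr⟩ := hx
  have hr : (m.toLineData L hL).Rigid := hKr.iso (LinePic.mk_eq_mk.mp hK).some
  exact ⟨⟨L, hL, (m.nonempty_rig_iso_iff hL).mpr hr⟩, m.classAt_idPoint _⟩

theorem nonempty_iso_of_classAt_idPoint {M M' : RigidifiedLineBundle c ε (structMap k R)}
    (h : m.classAt M (idPoint k R) = m.classAt M' (idPoint k R)) : Nonempty (M.L ≅ M'.L) := by
  rw [m.classAt_idPoint, m.classAt_idPoint] at h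
  exact (m.picClass_eq_iff _ _).mp h

end Fermat.Agent.Jac.CurveModel
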