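import Fermat.Agent.Jac.Rep.Cut
import Fermat.Agent.Jac.Rep.AffinePoints
import Fermat.Agent.Jac.Sheaf.DescentClass

/-!
# Affine points of a representing scheme are classes of line data
-/

set_option autoImplicit false

noncomputable section

universe u

open CategoryTheory CategoryTheory.Limits AlgebraicGeometry NeronModelInfra AlgebraicGeometry.RelPicard
  GoodReductionJacobian

namespace Fermat.Agent.Jac

variable {k : Type u} [Field k] {C : Scheme.{u}} {c : C ⟶ Spec (CommRingCat.of k)}
  {ε : SchemeHomOver (𝟙 (Spec (CommRingCat.of k))) c}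

theorem postComp_assoc {X X' T T' : Scheme.{u}} {x : X ⟶ Spec (CommRingCat.of k)}
    {x' : X' ⟶ Spec (CommRingCat.of k)} {t : T ⟶ Spec (CommRingCat.of k)}
    {t' : T' ⟶ Spec (CommRingCat.of k)} (f : SchemeHomOver x x') (g : SchemeHomOver t x)
    (h : SchemeHomOver t' t) : postComp (postComp f g) h = postComp f (postComp g h) :=
  Subtype.ext (Category.assoc _ _ _).symm

namespace CurveModel

variable (m : CurveModel c ε) {Z : UnitFieldCond m.D} {D : RelativePic0Designation k c}
variable (h : RepresentsRelSubPic c ε (m.cut Z) D)
variable {R R' : Type u} [CommRing R] [Algebra k R] [CommRing R'] [Algebra k R']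
variable {T : Scheme.{u}} {t : T ⟶ Spec (CommRingCat.of k)}

/-- The class of a point of the representing scheme. -/
def pointClass (s : SchemeHomOver (structMap k R) D.toBase) : LinePic m.D R :=
  m.classAt h.poincare s

theorem pointClass_mem_rigid (s : SchemeHomOver (structMap k R) D.toBase) :
    m.pointClass h s ∈ LinePic.rigid m.D R :=
  m.classAt_mem_rigid _ s

theorem pointClass_onFibres (s : SchemeHomOver (structMap k R) D.toBase) :
    Z.OnFibres (m.pointClass h s) :=
  (m.cut_P_iff Z _ _).mp h.poincare_mem R s

theorem map_pointClass (s : SchemeHomOver (structMap k R) D.toBase) (φ : R →ₐ[k] R') :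
    LinePic.map φ (m.pointClass h s) = m.pointClass h (postComp s (specHomOver φ)) :=
  m.map_classAt _ s φ

theorem classAt_poincare_pullback (g : SchemeHomOver t D.toBase)
    (s : SchemeHomOver (structMap k R) t) :
    m.classAt (h.poincare.pullbackAlong g) s = m.pointClass h (postComp g s) :=
  m.classAt_pullbackAlong _ g s

theorem pointClass_injective :
    Function.Injective (m.pointClass h : SchemeHomOver (structMap k R) D.toBase → LinePic m.D R) :=
  fun g g' hg => h.ext_of_iso _ g g' <| m.nonempty_iso_of_classAt_idPoint <| by
    rw [m.classAt_poincare_pullback, m.classAt_poincare_pullback]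
    have e : ∀ g : SchemeHomOver (structMap k R) D.toBase, postComp g (idPoint k R) = g := fun g =>
      Subtype.ext (Category.id_comp _)
    rw [e, e]
    exact hg

theorem exists_pointClass_eq {x : LinePic m.D R} (hx : x ∈ LinePic.rigid m.D R)
    (hZ : Z.OnFibres x) : ∃ s : SchemeHomOver (structMap k R) D.toBase, m.pointClass h s = x := by
  obtain ⟨M, hM⟩ := m.exists_classAt_eq hx
  have hP : (m.cut Z).P (structMap k R) M := by
    intro K _ _ s
    obtain ⟨φ, rfl⟩ := exists_specHomOver_eq s
    have e : postComp (idPoint k R) (specHomOver φ) = specHomOver φ :=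
      Subtype.ext (Category.comp_id _)
    rw [← e, ← m.map_classAt, hM]
    exact hZ K φ
  obtain ⟨g, ⟨i⟩, -⟩ := h.univ _ M hP
  refine ⟨g, ?_⟩
  have e : postComp g (idPoint k R) = g := Subtype.ext (Category.id_comp _)
  rw [← hM, ← m.classAt_congr ⟨i⟩ (idPoint k R), m.classAt_poincare_pullback, e]

/-- Morphisms to the representing scheme are determined by the classes at affine points. -/
theorem hom_ext_pointClass {a b : SchemeHomOver t D.toBase}
    (hab : ∀ (R : Type u) [CommRing R] [Algebra k R] (s : SchemeHomOver (structMap k R) t),
      m.pointClass h (postComp a s) = m.pointClass h (postComp b s)) : a = b :=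
  hom_ext_of_affine_points fun R _ _ s => m.pointClass_injective h (hab R s)

/-- A natural family of rigid classes satisfying `Z` is given by a morphism. -/
theorem exists_hom_pointClass
    (x : ∀ (R : Type u) [CommRing R] [Algebra k R], SchemeHomOver (structMap k R) t → LinePic m.D R)
    (rigid : ∀ (R : Type u) [CommRing R] [Algebra k R] (s : SchemeHomOver (structMap k R) t),
      x R s ∈ LinePic.rigid m.D R)
    (mem : ∀ (R : Type u) [CommRing R] [Algebra k R] (s : SchemeHomOver (structMap k R) t),
      Z.OnFibres (x R s))
    (natural : ∀ (R R' : Type u) [CommRing R] [Algebra k R] [CommRing R'] [Algebra k R']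
      (φ : R →ₐ[k] R') (s : SchemeHomOver (structMap k R) t),
      LinePic.map φ (x R s) = x R' (postComp s (specHomOver φ))) :
    ∃ g : SchemeHomOver t D.toBase,
      ∀ (R : Type u) [CommRing R] [Algebra k R] (s : SchemeHomOver (structMap k R) t),
        m.pointClass h (postComp g s) = x R s := by
  let F : PointFamily t D.toBase :=
    { app := fun R _ _ s => (m.exists_pointClass_eq h (rigid R s) (mem R s)).choose
      natural := fun R R' _ _ _ _ φ s => m.pointClass_injective h <| by
        rw [← m.map_pointClass, (m.exists_pointClass_eq h (rigid R s) (mem R s)).choose_spec,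
          (m.exists_pointClass_eq h (rigid R' _) (mem R' _)).choose_spec, natural] }
  obtain ⟨g, hg⟩ := F.exists_hom
  exact ⟨g, fun R _ _ s => by
    rw [hg R s]; exact (m.exists_pointClass_eq h (rigid R s) (mem R s)).choose_spec⟩

theorem pointClass_zero (s : SchemeHomOver (structMap k R) (𝟙 (Spec (CommRingCat.of k)))) :
    m.pointClass h (postComp ⟨D.zeroSection, D.zeroSection_toBase⟩ s) = 1 := by
  rw [← m.classAt_poincare_pullback, m.classAt_congr h.zero s, m.classAt_unit_eq_one]

end CurveModel

end Fermat.Agent.Jac
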