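import Fermat.Prelude.Def_AlgebraicGeometry_RelPicardAlgEquivZeroCut
import Fermat.Agent.Jac.Rep.Points
import Fermat.Agent.Jac.Rep.DegPoints
import Fermat.Agent.Jac.Euler.Degree
import Mathlib.AlgebraicGeometry.AlgClosed.Basic
import Mathlib.AlgebraicGeometry.Geometrically.Connected

/-!
# A product of copies of the curve surjects to the representing scheme

Given the difference map `σ` and the Abel map `u`, the sum of `g` copies of `u` is surjective, so
the representing scheme is proper and geometrically connected.
-/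

set_option autoImplicit false
set_option linter.style.haveILetI false

noncomputable section

universe u

open CategoryTheory CategoryTheory.Limits AlgebraicGeometry NeronModelInfra AlgebraicGeometry.RelPicard
  GoodReductionJacobian

namespace Fermat.Agent.Jac

variable {k : Type u} [Field k] {C : Scheme.{u}} {c : C ⟶ Spec (CommRingCat.of k)}

variable (k) in
theorem structMap_self : structMap k k = 𝟙 (Spec (CommRingCat.of k)) :=
  Spec.map_id _

/-- The product of a geometrically integral proper scheme with a geometrically integral proper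
curve is geometrically integral. -/
theorem geometricallyIntegral_fst_comp {S : Scheme.{u}} (s : S ⟶ Spec (CommRingCat.of k))
    [IsProper s] [GeometricallyIntegral s] [IsProper c] [GeometricallyIntegral c] :
    GeometricallyIntegral (pullback.fst s c ≫ s) := by
  constructor
  intro K _ y Z fst snd hP
  suffices IsIntegral (pullback (pullback.fst s c ≫ s) y) from
    IsIntegral.of_isIso hP.isoPullback.inv
  have : IsIntegral (pullback s y) :=
    pullback_of_geometrically (P := IsIntegral) GeometricallyIntegral.geometrically_isIntegral K y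
  have : IsLocallyNoetherian (pullback s y) :=
    LocallyOfFiniteType.isLocallyNoetherian (pullback.snd s y)
  have : IsIntegral (pullback (pullback.fst s c) (pullback.fst s y)) := inferInstance
  exact IsIntegral.of_isIso (pullbackRightPullbackFstIso s y (pullback.fst s c)).hom

theorem geometricallyConnected_of_surjective {S X : Scheme.{u}} {b : X ⟶ Spec (CommRingCat.of k)}
    (v : S ⟶ X) [Surjective v] [GeometricallyIntegral (v ≫ b)] : GeometricallyConnected b := by
  refine ⟨geometrically_iff_of_isClosedUnderIsomorphisms.mpr fun K _ y => ?_⟩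
  have : IsIntegral (pullback (v ≫ b) y) :=
    pullback_of_geometrically (P := IsIntegral) GeometricallyIntegral.geometrically_isIntegral K y
  have : IsIntegral (pullback v (pullback.fst b y)) :=
    IsIntegral.of_isIso (pullbackRightPullbackFstIso b y v).inv
  exact (pullback.snd v (pullback.fst b y)).surjective.connectedSpace
    (pullback.snd v (pullback.fst b y)).continuous

variable {ε : SchemeHomOver (𝟙 (Spec (CommRingCat.of k))) c}

namespace CurveModel

variable (m : CurveModel c ε) {J : RelativePic0Designation k c}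
  (h : RepresentsRelSubPic c ε (m.cut (degZero m.D)) J)

/-- The defining property of a difference map. -/
def IsSub (σ : SchemeHomOver (pullback.fst J.toBase J.toBase ≫ J.toBase) J.toBase) : Prop :=
  ∀ (R : Type u) [CommRing R] [Algebra k R]
    (s : SchemeHomOver (structMap k R) (pullback.fst J.toBase J.toBase ≫ J.toBase)),
    m.pointClass h (postComp σ s) =
      m.pointClass h (postComp (⟨pullback.fst J.toBase J.toBase, rfl⟩ :
        SchemeHomOver (pullback.fst J.toBase J.toBase ≫ J.toBase) J.toBase) s) *
      (m.pointClass h (postComp (⟨pullback.snd J.toBase J.toBase, pullback.condition.symm⟩ :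
        SchemeHomOver (pullback.fst J.toBase J.toBase ≫ J.toBase) J.toBase) s))⁻¹

/-- The defining property of the Abel map. -/
def IsAbel (u : SchemeHomOver c J.toBase) : Prop :=
  (∀ (φ : m.D.A →ₐ[k] k) (s : SchemeHomOver (structMap k k) c),
    s.1 = Spec.map (CommRingCat.ofHom φ.toRingHom) ≫ m.j₀ →
      m.pointClass h (postComp u s) =
        (LinePic.ptClass (Sum.inl φ))⁻¹ * LinePic.ptClass (Sum.inr m.D.ev)) ∧
  ∀ (φ : m.D.A₁ →ₐ[k] k) (s : SchemeHomOver (structMap k k) c),
    s.1 = Spec.map (CommRingCat.ofHom φ.toRingHom) ≫ m.j₁ →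
      m.pointClass h (postComp u s) =
        (LinePic.ptClass (Sum.inr φ))⁻¹ * LinePic.ptClass (Sum.inr m.D.ev)

variable {σ : SchemeHomOver (pullback.fst J.toBase J.toBase ≫ J.toBase) J.toBase}
  {T : Scheme.{u}} {t : T ⟶ Spec (CommRingCat.of k)}
  {R : Type u} [CommRing R] [Algebra k R]

variable (J) in
/-- The constant zero map. -/
def zeroOver (t : T ⟶ Spec (CommRingCat.of k)) : SchemeHomOver t J.toBase :=
  ⟨t ≫ J.zeroSection, by rw [Category.assoc, J.zeroSection_toBase, Category.comp_id]⟩

theorem pointClass_zeroOver (p : SchemeHomOver (structMap k R) t) :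
    m.pointClass h (postComp (zeroOver J t) p) = 1 := by
  have e : postComp (zeroOver J t) p = postComp ⟨J.zeroSection, J.zeroSection_toBase⟩
      (⟨structMap k R, Category.comp_id _⟩ : SchemeHomOver (structMap k R) (𝟙 _)) :=
    Subtype.ext (by show p.1 ≫ t ≫ _ = _ ≫ _; rw [← Category.assoc, p.2])
  rw [e]
  exact m.pointClass_zero h _

/-- The pointwise difference of two maps. -/
def subHom (σ : SchemeHomOver (pullback.fst J.toBase J.toBase ≫ J.toBase) J.toBase)
    (a b : SchemeHomOver t J.toBase) : SchemeHomOver t J.toBase :=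
  postComp σ ⟨pullback.lift a.1 b.1 (a.2.trans b.2.symm), by rw [pullback.lift_fst_assoc, a.2]⟩

theorem pointClass_subHom (hσ : m.IsSub h σ) (a b : SchemeHomOver t J.toBase)
    (p : SchemeHomOver (structMap k R) t) :
    m.pointClass h (postComp (subHom σ a b) p) =
      m.pointClass h (postComp a p) * (m.pointClass h (postComp b p))⁻¹ := by
  rw [subHom, postComp_assoc, hσ R]
  refine congrArg₂ (fun x y => m.pointClass h x * (m.pointClass h y)⁻¹) ?_ ?_
  · exact Subtype.ext ((Category.assoc _ _ _).trans
      (congrArg (p.1 ≫ ·) (pullback.lift_fst _ _ _)))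
  · exact Subtype.ext ((Category.assoc _ _ _).trans
      (congrArg (p.1 ≫ ·) (pullback.lift_snd _ _ _)))

/-- The pointwise sum of two maps. -/
def addHom (σ : SchemeHomOver (pullback.fst J.toBase J.toBase ≫ J.toBase) J.toBase)
    (a b : SchemeHomOver t J.toBase) : SchemeHomOver t J.toBase :=
  subHom σ a (subHom σ (zeroOver J t) b)

theorem pointClass_addHom (hσ : m.IsSub h σ) (a b : SchemeHomOver t J.toBase)
    (p : SchemeHomOver (structMap k R) t) :
    m.pointClass h (postComp (addHom σ a b) p) =
      m.pointClass h (postComp a p) * m.pointClass h (postComp b p) := by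
  rw [addHom, m.pointClass_subHom h hσ, m.pointClass_subHom h hσ, pointClass_zeroOver, one_mul,
    inv_inv]

theorem exists_point_of_ptClass {u : SchemeHomOver c J.toBase} (hu : m.IsAbel h u)
    (φ : (m.D.A →ₐ[k] k) ⊕ (m.D.A₁ →ₐ[k] k)) :
    ∃ q : SchemeHomOver (structMap k k) c, m.pointClass h (postComp u q) =
      (LinePic.ptClass φ)⁻¹ * LinePic.ptClass (Sum.inr m.D.ev) := by
  rcases φ with φ | φ
  · refine ⟨⟨Spec.map (CommRingCat.ofHom φ.toRingHom) ≫ m.j₀, ?_⟩, hu.1 φ _ rfl⟩
    rw [Category.assoc, m.j₀_over, ← Spec.map_comp, ← CommRingCat.ofHom_comp]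
    exact congrArg (fun f => Spec.map (CommRingCat.ofHom f)) φ.comp_algebraMap
  · refine ⟨⟨Spec.map (CommRingCat.ofHom φ.toRingHom) ≫ m.j₁, ?_⟩, hu.2 φ _ rfl⟩
    rw [Category.assoc, m.j₁_over, ← Spec.map_comp, ← CommRingCat.ofHom_comp]
    exact congrArg (fun f => Spec.map (CommRingCat.ofHom f)) φ.comp_algebraMap

theorem abel_base {u : SchemeHomOver c J.toBase} (hu : m.IsAbel h u) :
    postComp u ε = ⟨J.zeroSection, J.zeroSection_toBase⟩ := by
  refine m.hom_ext_pointClass h fun R _ _ s => ?_
  let s₀ : SchemeHomOver (structMap k k) (𝟙 (Spec (CommRingCat.of k))) :=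
    ⟨structMap k k, Category.comp_id _⟩
  have hs : s = postComp s₀ (specHomOver (Algebra.ofId k R)) := Subtype.ext
    (((Category.comp_id _).symm.trans s.2).trans (specHomOver (Algebra.ofId k R)).2.symm)
  have h1 : m.pointClass h (postComp (postComp u ε) s₀) = 1 := by
    rw [postComp_assoc, hu.2 m.D.ev _ (by
      show structMap k k ≫ ε.1 = _
      rw [structMap_self, Category.id_comp, m.ε_eq])]
    exact inv_mul_cancel _
  rw [m.pointClass_zero, hs, ← postComp_assoc, ← m.map_pointClass, h1, map_one]

theorem exists_sum_map [IsProper c] [GeometricallyIntegral c] (hσ : m.IsSub h σ)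
    {u : SchemeHomOver c J.toBase} (hu : m.IsAbel h u) (n : ℕ) :
    ∃ (S : Scheme.{u}) (s : S ⟶ Spec (CommRingCat.of k)) (v : SchemeHomOver s J.toBase)
      (o : SchemeHomOver (𝟙 (Spec (CommRingCat.of k))) s),
      IsProper s ∧ GeometricallyIntegral s ∧
      postComp v o = ⟨J.zeroSection, J.zeroSection_toBase⟩ ∧
      ∀ l : List ((m.D.A →ₐ[k] k) ⊕ (m.D.A₁ →ₐ[k] k)), l.length = n →
        ∃ p : SchemeHomOver (structMap k k) s, m.pointClass h (postComp v p) =
          ((l.map LinePic.ptClass).prod)⁻¹ * LinePic.ptClass (Sum.inr m.D.ev) ^ n := by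
  induction n with
  | zero =>
    refine ⟨Spec (CommRingCat.of k), 𝟙 _, ⟨J.zeroSection, J.zeroSection_toBase⟩,
      ⟨𝟙 _, Category.comp_id _⟩, inferInstance, AlgebraicGeometry.RelPicard.geometricallyIntegral_id_Spec k,
      Subtype.ext (Category.id_comp _), fun l hl => ⟨⟨structMap k k, Category.comp_id _⟩, ?_⟩⟩
    rw [m.pointClass_zero, List.length_eq_zero_iff.mp hl]
    simp
  | succ n ih =>
    obtain ⟨S, s, v, o, _, _, hvo, hl⟩ := ih
    let a : SchemeHomOver (pullback.fst s c ≫ s) J.toBase :=
      ⟨pullback.fst s c ≫ v.1, by rw [Category.assoc, v.2]⟩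
    let b : SchemeHomOver (pullback.fst s c ≫ s) J.toBase :=
      ⟨pullback.snd s c ≫ u.1, by rw [Category.assoc, u.2, pullback.condition]⟩
    let o' : SchemeHomOver (𝟙 (Spec (CommRingCat.of k))) (pullback.fst s c ≫ s) :=
      ⟨pullback.lift o.1 ε.1 (o.2.trans ε.2.symm), by rw [pullback.lift_fst_assoc, o.2]⟩
    refine ⟨pullback s c, pullback.fst s c ≫ s, addHom σ a b, o', inferInstance,
      geometricallyIntegral_fst_comp s, ?_, fun l hlen => ?_⟩
    · refine m.hom_ext_pointClass h fun R _ _ r => ?_
      have ea : postComp a (postComp o' r) = postComp (postComp v o) r :=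
        Subtype.ext ((Category.assoc _ _ _).trans
          (congrArg (r.1 ≫ ·) (pullback.lift_fst_assoc _ _ _ _)))
      have eb : postComp b (postComp o' r) = postComp (postComp u ε) r :=
        Subtype.ext ((Category.assoc _ _ _).trans
          (congrArg (r.1 ≫ ·) (pullback.lift_snd_assoc _ _ _ _)))
      rw [postComp_assoc, m.pointClass_addHom h hσ, ea, eb, hvo, m.abel_base h hu,
        m.pointClass_zero, one_mul]
    · match l, hlen with
      | φ :: l, hlen =>
        obtain ⟨p, hp⟩ := hl l (Nat.succ_injective hlen)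
        obtain ⟨q, hq⟩ := m.exists_point_of_ptClass h hu φ
        refine ⟨⟨pullback.lift p.1 q.1 (p.2.trans q.2.symm),
          by rw [pullback.lift_fst_assoc, p.2]⟩, ?_⟩
        rw [m.pointClass_addHom h hσ]
        have ea : ∀ hh, postComp a ⟨pullback.lift p.1 q.1 (p.2.trans q.2.symm), hh⟩ =
            postComp v p := fun _ => Subtype.ext (pullback.lift_fst_assoc _ _ _ _)
        have eb : ∀ hh, postComp b ⟨pullback.lift p.1 q.1 (p.2.trans q.2.symm), hh⟩ =
            postComp u q := fun _ => Subtype.ext (pullback.lift_snd_assoc _ _ _ _)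
        rw [ea, eb, hp, hq, List.map_cons, List.prod_cons, mul_inv, pow_succ]
        ac_rfl

variable [IsAlgClosed k] [IsProper c] [GeometricallyIntegral c] [LocallyOfFiniteType J.toBase]
  [IsSeparated J.toBase]

/-- A product of copies of the curve surjects to the representing scheme. -/
theorem exists_surjection (hσ : m.IsSub h σ) {u : SchemeHomOver c J.toBase} (hu : m.IsAbel h u) :
    ∃ (S : Scheme.{u}) (s : S ⟶ Spec (CommRingCat.of k)) (v : SchemeHomOver s J.toBase)
      (o : SchemeHomOver (𝟙 (Spec (CommRingCat.of k))) s),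
      IsProper s ∧ LocallyOfFiniteType s ∧ GeometricallyIntegral s ∧ Surjective v.1 ∧
      postComp v o = ⟨J.zeroSection, J.zeroSection_toBase⟩ := by
  obtain ⟨S, s, v, o, hs, hs', hvo, hl⟩ := m.exists_sum_map h hσ hu (LinePic.genus m.D)
  refine ⟨S, s, v, o, hs, inferInstance, hs', ⟨fun x => ?_⟩, hvo⟩
  have : IsProper (v.1 ≫ J.toBase) := by rw [v.2]; exact hs
  have : IsProper v.1 := IsProper.of_comp v.1 J.toBase
  have : JacobsonSpace J.P := LocallyOfFiniteType.jacobsonSpace J.toBase
  have hclosed : closedPoints J.P ⊆ Set.range v.1 := by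
    intro y hy
    let q : SchemeHomOver (structMap k k) J.toBase :=
      ⟨pointOfClosedPoint J.toBase y hy, (pointOfClosedPoint_comp _ _ _).trans (structMap_self k).symm⟩
    have hdeg : LinePic.deg (m.pointClass h q) = 0 := by
      have h0 := m.pointClass_onFibres h q k (AlgHom.id k k)
      rw [LinePic.map_id] at h0
      exact (degZero_mem_iff _).mp h0
    obtain ⟨l, hlen, hx⟩ := LinePic.exists_prod_of_deg_zero _ hdeg
    obtain ⟨p, hp⟩ := hl l hlen
    have e : postComp v p = q := m.pointClass_injective h (hp.trans hx.symm)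
    refine ⟨p.1 (IsLocalRing.closedPoint k), ?_⟩
    exact (Scheme.Hom.comp_apply p.1 v.1 _).symm.trans (Eq.trans
      (congrArg (fun g : SchemeHomOver (structMap k k) J.toBase => g.1 (IsLocalRing.closedPoint k))
        e) (pointOfClosedPoint_apply _ _ _ _))
  have huniv : Set.range v.1 = Set.univ :=
    Set.eq_univ_of_univ_subset (closure_closedPoints.symm.le.trans
      (closure_minimal hclosed v.1.isClosedMap.isClosed_range))
  exact huniv.ge (Set.mem_univ x)

theorem isProper_toBase (hσ : m.IsSub h σ) {u : SchemeHomOver c J.toBase} (hu : m.IsAbel h u) :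
    IsProper J.toBase := by
  obtain ⟨S, s, v, o, hs, -, -, hv, -⟩ := m.exists_surjection h hσ hu
  have : IsProper (v.1 ≫ J.toBase) := by rw [v.2]; exact hs
  have : UniversallyClosed J.toBase := .of_comp_surjective v.1 J.toBase
  exact { }

theorem geometricallyConnected_toBase (hσ : m.IsSub h σ) {u : SchemeHomOver c J.toBase}
    (hu : m.IsAbel h u) : GeometricallyConnected J.toBase := by
  obtain ⟨S, s, v, o, -, -, hs', hv, -⟩ := m.exists_surjection h hσ hu
  have : GeometricallyIntegral (v.1 ≫ J.toBase) := by rw [v.2]; exact hs'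
  exact geometricallyConnected_of_surjective v.1

end CurveModel

end Fermat.Agent.Jac
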