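import Fermat.Agent.Jac.Rep.Points
import Fermat.Agent.Jac.Rep.DegPoints
import Fermat.Agent.Jac.Rep.Proper
import Mathlib.AlgebraicGeometry.Morphisms.Separated

/-!
# The Abel map

The classes of the inverse diagonals, normalised by `ε`, give morphisms from the two charts of the
curve; on `k`-points they are `P ↦ [P] - [ε]`, so they glue as the target is separated.
-/

set_option autoImplicit false

noncomputable section

universe u

open CategoryTheory CategoryTheory.Limits AlgebraicGeometry NeronModelInfra AlgebraicGeometry.RelPicard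
  GoodReductionJacobian

namespace Fermat.Agent.Jac

variable {k : Type u} [Field k] [IsAlgClosed k]

/-- Morphisms over `k` from a reduced finitely generated algebra to a separated scheme agree when
they agree on `k`-points. -/
theorem hom_ext_of_k_points {B : Type u} [CommRing B] [IsReduced B] [Algebra k B]
    [Algebra.FiniteType k B] {Y : Scheme.{u}} {y : Y ⟶ Spec (CommRingCat.of k)} [IsSeparated y]
    {a b : SchemeHomOver (structMap k B) y}
    (h : ∀ φ : B →ₐ[k] k, postComp a (specHomOver φ) = postComp b (specHomOver φ)) : a = b := by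
  have : IsJacobsonRing B := isJacobsonRing_of_finiteType (A := k)
  refine Subtype.ext (ext_of_fromSpecResidueField_eq a.1 b.1 y
    (closedPoints (Spec (CommRingCat.of B))) (dense_iff_closure_eq.mpr closure_closedPoints)
    (fun x hx => ?_) (a.2.trans b.2.symm))
  have hmax : x.asIdeal.IsMaximal := (PrimeSpectrum.isClosed_singleton_iff_isMaximal x).mp hx
  obtain ⟨φ, hφ⟩ := Chart.exists_point (k := k) x.asIdeal
  have hfac : CommRingCat.ofHom (algebraMap (CommRingCat.of B) x.asIdeal.ResidueField) =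
      CommRingCat.ofHom φ.toRingHom ≫
        CommRingCat.ofHom ((algebraMap (CommRingCat.of B) x.asIdeal.ResidueField).comp
          (algebraMap k B)) := by
    ext z
    show algebraMap (CommRingCat.of B) x.asIdeal.ResidueField z =
      algebraMap (CommRingCat.of B) x.asIdeal.ResidueField (algebraMap k B (φ z))
    rw [← sub_eq_zero, ← map_sub, ← RingHom.mem_ker, Ideal.ker_algebraMap_residueField, ← hφ]
    show φ (z - algebraMap k B (φ z)) = 0
    rw [map_sub, AlgHom.commutes, sub_eq_zero]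
    rfl
  rw [← Scheme.Spec.map_residueFieldIso_inv_eq_fromSpecResidueField, hfac, Spec.map_comp]
  simp only [Category.assoc]
  exact congrArg (fun e => _ ≫ e)
    (congrArg (fun e => _ ≫ e) (congrArg Subtype.val (h φ)))

variable {C : Scheme.{u}} {c : C ⟶ Spec (CommRingCat.of k)}
  {ε : SchemeHomOver (𝟙 (Spec (CommRingCat.of k))) c}

namespace CurveModel

variable (m : CurveModel c ε)

/-- A `k`-point of the first chart, on the curve. -/
def pt₀ (φ : m.D.A →ₐ[k] k) : SchemeHomOver (structMap k k) c :=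
  postComp ⟨m.j₀, m.j₀_over⟩ (specHomOver φ)

/-- A `k`-point of the second chart, on the curve. -/
def pt₁ (φ : m.D.A₁ →ₐ[k] k) : SchemeHomOver (structMap k k) c :=
  postComp ⟨m.j₁, m.j₁_over⟩ (specHomOver φ)

omit [IsAlgClosed k] in
theorem pt₀_val (φ : m.D.A →ₐ[k] k) :
    (m.pt₀ φ).1 = Spec.map (CommRingCat.ofHom φ.toRingHom) ≫ m.j₀ := rfl

omit [IsAlgClosed k] in
theorem pt₁_val (φ : m.D.A₁ →ₐ[k] k) :
    (m.pt₁ φ).1 = Spec.map (CommRingCat.ofHom φ.toRingHom) ≫ m.j₁ := rfl

/-- The class `[P] - [ε]` of a point. -/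
def abelClass (D : CurveData.{u} k) (P : (D.A →ₐ[k] k) ⊕ (D.A₁ →ₐ[k] k)) : LinePic D k :=
  (LinePic.ptClass P)⁻¹ * LinePic.ptClass (Sum.inr D.ev)

variable {J : RelativePic0Designation k c}
variable (h : RepresentsRelSubPic c ε (m.cut (degZero m.D)) J)

/-- A family of points gives a morphism to the Jacobian. -/
theorem exists_chart_hom {S : Type u} [CommRing S] [Algebra k S] [Algebra.FiniteType k S]
    (x : LinePic m.D S) (P : (S →ₐ[k] k) → (m.D.A →ₐ[k] k) ⊕ (m.D.A₁ →ₐ[k] k))
    (hx : ∀ φ, LinePic.map φ x = LinePic.ptClass (P φ)) :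
    ∃ v : SchemeHomOver (structMap k S) J.toBase,
      ∀ φ, m.pointClass h (postComp v (specHomOver φ)) = abelClass m.D (P φ) := by
  obtain ⟨L, hL⟩ := LinePic.mk_surjective
    (x⁻¹ * LinePic.map (Algebra.ofId k S) (LinePic.ptClass (Sum.inr m.D.ev)))
  obtain ⟨Q, hQ, h1⟩ := L.exists_rigid_twist
  let z := LinePic.mk (L.tensor Q)
  have hz : ∀ φ : S →ₐ[k] k, LinePic.map φ z = abelClass m.D (P φ) := fun φ => by
    show LinePic.map φ (LinePic.mk (L.tensor Q)) = _
    rw [← LinePic.mk_mul, map_mul, h1 k φ, mul_one, hL, map_mul, map_inv, hx, LinePic.map_map,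
      Subsingleton.elim (φ.comp (Algebra.ofId k S)) (AlgHom.id k k), LinePic.map_id]
    rfl
  have hdeg : (degZero m.D).OnFibres z := onFibres_degZero_of_points z fun φ => by
    rw [degZero_mem_iff, hz, abelClass, LinePic.deg_mul, LinePic.deg_inv, LinePic.deg_ptClass,
      LinePic.deg_ptClass, neg_neg, add_neg_cancel]
  obtain ⟨v, hv⟩ := m.exists_pointClass_eq h (x := z) ⟨_, rfl, hQ⟩ hdeg
  exact ⟨v, fun φ => by rw [← m.map_pointClass, hv, hz]⟩

/-- The Abel map sends a point `P` to the class `[P] - [ε]`. -/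
theorem exists_abel_points [IsSeparated J.toBase] :
    ∃ u : SchemeHomOver c J.toBase,
      (∀ φ : m.D.A →ₐ[k] k,
        m.pointClass h (postComp u (m.pt₀ φ)) = abelClass m.D (Sum.inl φ)) ∧
      (∀ φ : m.D.A₁ →ₐ[k] k,
        m.pointClass h (postComp u (m.pt₁ φ)) = abelClass m.D (Sum.inr φ)) := by
  obtain ⟨v₀, hv₀⟩ := m.exists_chart_hom h (LinePic.mk m.D.diag₀) Sum.inl
    fun φ => LinePic.map_mk (m.D.pullback_diag₀_point φ)
  obtain ⟨v₁, hv₁⟩ := m.exists_chart_hom h (LinePic.mk m.D.diag₁) Sum.inr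
    fun φ => LinePic.map_mk (m.D.pullback_diag₁_point φ)
  have := m.D.finiteType_B
  have : IsDomain m.D.B :=
    IsLocalization.isDomain_of_le_nonZeroDivisors m.D.B (M := Submonoid.powers m.D.x)
      (powers_le_nonZeroDivisors_of_noZeroDivisors fun h0 =>
        Polynomial.X_ne_zero (m.D.injective_x (by simp [h0])))
  have hB : postComp v₀ (specHomOver m.D.i₀) = postComp v₁ (specHomOver m.D.i₁) := by
    refine hom_ext_of_k_points fun φ => m.pointClass_injective h ?_
    have e : ∀ {S : Type u} [CommRing S] [Algebra k S] (v : SchemeHomOver (structMap k S) J.toBase)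
        (i : S →ₐ[k] m.D.B), postComp (postComp v (specHomOver i)) (specHomOver φ) =
          postComp v (specHomOver (φ.comp i)) := fun v i => by
      refine Subtype.ext ?_
      show _ ≫ _ ≫ v.1 = _ ≫ v.1
      rw [← Category.assoc]
      exact congrArg (fun f => f ≫ v.1) (Spec.map_comp _ _).symm
    rw [e, e, hv₀, hv₁]
    have h01 : LinePic.ptClass (Sum.inl (φ.comp m.D.i₀)) =
        LinePic.ptClass (Sum.inr (φ.comp m.D.i₁)) := by
      show LinePic.mk (m.D.pointData₀ _) = LinePic.mk (m.D.pointData₁ _)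
      rw [← LinePic.map_mk (m.D.pullback_diag₀_point _), ← LinePic.map_map,
        LinePic.map_mk m.D.pullback_diag₀_B, ← LinePic.map_mk (m.D.pullback_diag₁_point _),
        ← LinePic.map_map, LinePic.map_mk m.D.pullback_diag₁_B]
    rw [abelClass, abelClass, h01]
  have hglue : pullback.fst m.j₀ m.j₁ ≫ v₀.1 = pullback.snd m.j₀ m.j₁ ≫ v₁.1 := by
    rw [← cancel_epi m.inter.isoPullback.hom, ← Category.assoc, ← Category.assoc,
      IsPullback.isoPullback_hom_fst, IsPullback.isoPullback_hom_snd]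
    exact congrArg Subtype.val hB
  let X : Bool → Scheme.{u} := fun b => bif b then Spec (CommRingCat.of m.D.A₁)
    else Spec (CommRingCat.of m.D.A)
  let f : ∀ b, X b ⟶ C := fun
    | false => m.j₀
    | true => m.j₁
  let g : ∀ b, X b ⟶ J.P := fun
    | false => v₀.1
    | true => v₁.1
  have hf : ∀ b, IsOpenImmersion (f b) := fun
    | false => m.open₀
    | true => m.open₁
  let 𝒰 : C.OpenCover := Scheme.Cover.mkOfCovers Bool X f (fun z => by
    rcases Set.eq_univ_iff_forall.mp m.covers z with ⟨w, hw⟩ | ⟨w, hw⟩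
    · exact ⟨false, w, hw⟩
    · exact ⟨true, w, hw⟩) hf
  have hgl : ∀ a b : Bool, pullback.fst (f a) (f b) ≫ g a = pullback.snd (f a) (f b) ≫ g b := by
    have := m.open₀
    have := m.open₁
    rintro (_ | _) (_ | _)
    · exact congrArg (fun e => e ≫ v₀.1) ((cancel_mono m.j₀).mp pullback.condition)
    · exact hglue
    · show pullback.fst m.j₁ m.j₀ ≫ v₁.1 = pullback.snd m.j₁ m.j₀ ≫ v₀.1
      rw [← cancel_epi (pullbackSymmetry m.j₀ m.j₁).hom, ← Category.assoc, ← Category.assoc,
        pullbackSymmetry_hom_comp_fst, pullbackSymmetry_hom_comp_snd]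
      exact hglue.symm
    · exact congrArg (fun e => e ≫ v₁.1) ((cancel_mono m.j₁).mp pullback.condition)
  let G : C ⟶ J.P := 𝒰.glueMorphisms g hgl
  have hG₀ : m.j₀ ≫ G = v₀.1 := 𝒰.ι_glueMorphisms g hgl false
  have hG₁ : m.j₁ ≫ G = v₁.1 := 𝒰.ι_glueMorphisms g hgl true
  refine ⟨⟨G, 𝒰.hom_ext _ _ ?_⟩, fun φ => ?_, fun φ => ?_⟩
  · rintro (_ | _)
    · show m.j₀ ≫ G ≫ J.toBase = m.j₀ ≫ c
      rw [← Category.assoc, hG₀, v₀.2, m.j₀_over]
    · show m.j₁ ≫ G ≫ J.toBase = m.j₁ ≫ c
      rw [← Category.assoc, hG₁, v₁.2, m.j₁_over]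
  · rw [← hv₀ φ]
    refine congrArg (m.pointClass h) (Subtype.ext ?_)
    show (_ ≫ m.j₀) ≫ G = _ ≫ v₀.1
    rw [Category.assoc, hG₀]
  · rw [← hv₁ φ]
    refine congrArg (m.pointClass h) (Subtype.ext ?_)
    show (_ ≫ m.j₁) ≫ G = _ ≫ v₁.1
    rw [Category.assoc, hG₁]

/-- The Abel map exists. -/
theorem exists_abel [IsSeparated J.toBase] : ∃ u, m.IsAbel h u := by
  obtain ⟨u, h₀, h₁⟩ := m.exists_abel_points h
  refine ⟨u, fun φ s hs => ?_, fun φ s hs => ?_⟩
  · rw [show s = m.pt₀ φ from Subtype.ext hs]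
    exact h₀ φ
  · rw [show s = m.pt₁ φ from Subtype.ext hs]
    exact h₁ φ

end CurveModel

end Fermat.Agent.Jac
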