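import Fermat.Agent.Jac.Rep.ClassAt

/-!
# The class of the trivial bundle
-/

set_option autoImplicit false

noncomputable section

universe u

open CategoryTheory CategoryTheory.Limits AlgebraicGeometry NeronModelInfra AlgebraicGeometry.RelPicard

namespace Fermat.Agent.Jac

theorem bijective_chartRing {X : Scheme.{u}} {A : CommRingCat.{u}} (J : Spec A ⟶ X)
    [IsOpenImmersion J] : Function.Bijective (chartRing J) := by
  have : IsIso (chartRing J) := by unfold chartRing; infer_instance
  exact (ConcreteCategory.isIso_iff_bijective (chartRing J)).mp this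

/-- The section `1` of the trivial sheaf on a chart. -/
def secOne {X : Scheme.{u}} {A : CommRingCat.{u}} (J : Spec A ⟶ X) [IsOpenImmersion J] :
    Sec J (SheafOfModules.unit X.ringCatSheaf) :=
  secEquiv J (SheafOfModules.unit X.ringCatSheaf) (1 : Γ(X, chartOpen J))

theorem bijective_smul_secOne {X : Scheme.{u}} {A : CommRingCat.{u}} (J : Spec A ⟶ X)
    [IsOpenImmersion J] : Function.Bijective fun a : A => a • secOne J := by
  have h : (fun a : A => a • secOne J) =
      fun a => secEquiv J (SheafOfModules.unit X.ringCatSheaf) (chartRing J a) := by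
    funext a
    refine (secEquiv_smul J _ a _).symm.trans (congrArg _ ?_)
    exact mul_one (chartRing J a)
  rw [h]
  exact (secEquiv J _).bijective.comp (bijective_chartRing J)

theorem resMap_secOne {X : Scheme.{u}} {A B : CommRingCat.{u}} {φ : A ⟶ B} (J : Spec A ⟶ X)
    (J' : Spec B ⟶ X) [IsOpenImmersion J] [IsOpenImmersion J'] (h : Spec.map φ ≫ J = J') :
    resMap J J' h (SheafOfModules.unit X.ringCatSheaf) (secOne J) = secOne J' :=
  congrArg (secEquiv J' (SheafOfModules.unit X.ringCatSheaf))
    (map_one (X.presheaf.map (homOfLE (chartOpen_le J J' h)).op).hom)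

namespace CurveModel

variable {k : Type u} [Field k] {C : Scheme.{u}} {c : C ⟶ Spec (CommRingCat.of k)}
  {ε : SchemeHomOver (𝟙 (Spec (CommRingCat.of k))) c}
variable (m : CurveModel c ε)
variable {T : Scheme.{u}} {t : T ⟶ Spec (CommRingCat.of k)}
variable {R : Type u} [CommRing R] [Algebra k R]

theorem picClass_unit :
    m.picClass (SheafOfModules.unit (pullback c (structMap k R)).ringCatSheaf)
      (Scheme.Modules.isInvertible_unit _) = 1 := by
  let L := SheafOfModules.unit (pullback c (structMap k R)).ringCatSheaf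
  let eM : m.D.AR R →ₗ[m.D.AR R] m.secM L := LinearMap.toSpanSingleton _ _ (secOne (m.J₀ R))
  let eN : m.D.AR₁ R →ₗ[m.D.AR₁ R] m.secN L := LinearMap.toSpanSingleton _ _ (secOne (m.J₁ R))
  refine (LinePic.mk_eq_mk.mpr ⟨LineData.isoUnitOfGens (m.toLineData L _)
    (LinearEquiv.ofBijective eM (bijective_smul_secOne (m.J₀ R)))
    (LinearEquiv.ofBijective eN (bijective_smul_secOne (m.J₁ R))) ?_⟩).symm
  show (m.toLineData L _).Rel 0 (eM 1) (eN 1)
  refine (m.rel_iff L _ 0 (eM 1) (eN 1)).mpr ?_
  rw [show eM 1 = secOne (m.J₀ R) from one_smul _ _, show eN 1 = secOne (m.J₁ R) from one_smul _ _,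
    pow_zero, one_smul]
  exact (resMap_secOne (m.J₀ R) (m.JB R) (m.JB_eq₀ R)).trans
    (resMap_secOne (m.J₁ R) (m.JB R) (m.JB_eq₁ R)).symm

theorem classAt_unit_eq_one (s : SchemeHomOver (structMap k R) t) :
    m.classAt (RigidifiedLineBundle.unit (c := c) (ε := ε) t) s = 1 := by
  rw [← m.picClass_unit (R := R)]
  exact (m.picClass_eq_iff _ _).mpr ⟨Scheme.Modules.pullbackUnitIso _⟩

end CurveModel

end Fermat.Agent.Jac
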