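import Fermat.Prelude.Def_AlgebraicGeometry_RepresentsRelSubPic
import Fermat.Agent.Jac.Rep.Unit
import Fermat.Agent.Jac.Alg.RigidGroup

/-!
# Cuts of the rigidified Picard functor by conditions on field points, and chart families
-/

set_option autoImplicit false

noncomputable section

universe u

open CategoryTheory CategoryTheory.Limits AlgebraicGeometry NeronModelInfra AlgebraicGeometry.RelPicard

namespace Fermat.Agent.Jac

variable {k : Type u} [Field k]

/-- A condition on classes over fields, invariant under field extensions. -/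
structure FieldCond (D : CurveData.{u} k) : Type (u + 1) where
  mem : ∀ (K : Type u) [Field K] [Algebra k K], LinePic D K → Prop
  invariant : ∀ (K K' : Type u) [Field K] [Algebra k K] [Field K'] [Algebra k K'] (φ : K →ₐ[k] K')
    (x : LinePic D K), mem K' (LinePic.map φ x) ↔ mem K x

/-- A class over a ring whose fibres all satisfy a condition. -/
def FieldCond.OnFibres {D : CurveData.{u} k} (Z : FieldCond D) {R : Type u} [CommRing R]
    [Algebra k R] (x : LinePic D R) : Prop :=
  ∀ (K : Type u) [Field K] [Algebra k K] (φ : R →ₐ[k] K), Z.mem K (LinePic.map φ x)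

theorem FieldCond.OnFibres.map {D : CurveData.{u} k} {Z : FieldCond D} {R R' : Type u}
    [CommRing R] [Algebra k R] [CommRing R'] [Algebra k R'] (φ : R →ₐ[k] R') {x : LinePic D R}
    (h : Z.OnFibres x) : Z.OnFibres (LinePic.map φ x) := fun K _ _ ψ => by
  rw [LinePic.map_map]
  exact h K _

/-- A condition containing the trivial class. -/
structure UnitFieldCond (D : CurveData.{u} k) : Type (u + 1) extends FieldCond D where
  one_mem : ∀ (K : Type u) [Field K] [Algebra k K], mem K 1

variable {C : Scheme.{u}} {c : C ⟶ Spec (CommRingCat.of k)}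
  {ε : SchemeHomOver (𝟙 (Spec (CommRingCat.of k))) c}

namespace CurveModel

variable (m : CurveModel c ε)

/-- The bundles whose classes at all field points satisfy `Z`. -/
def cut (Z : UnitFieldCond m.D) : SubPicCondition c ε where
  P {T} t M := ∀ (K : Type u) [Field K] [Algebra k K] (s : SchemeHomOver (structMap k K) t),
    Z.mem K (m.classAt M s)
  unit_mem t K _ _ s := by
    rw [m.classAt_unit_eq_one s]
    exact Z.one_mem K
  congr t M M' h hM K _ _ s := m.classAt_congr h s ▸ hM K s
  pullback_mem t t' ψ M hM K _ _ s := by
    rw [m.classAt_pullbackAlong]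
    exact hM K _

theorem cut_P_iff (Z : UnitFieldCond m.D) {T : Scheme.{u}} (t : T ⟶ Spec (CommRingCat.of k))
    (M : RigidifiedLineBundle c ε t) : (m.cut Z).P t M ↔
      ∀ (R : Type u) [CommRing R] [Algebra k R] (s : SchemeHomOver (structMap k R) t),
        Z.OnFibres (m.classAt M s) := by
  refine ⟨fun h R _ _ s K _ _ φ => ?_, fun h K _ _ s => ?_⟩
  · rw [m.map_classAt]
    exact h K _
  · have h' := h K s K (AlgHom.id k K)
    rwa [LinePic.map_id] at h'

end CurveModel

/-- Affine charts for the classes satisfying `Z`: on the locus `good i` the class is classified by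
a morphism to the spectrum of `U i`. -/
structure ChartFamily (D : CurveData.{u} k) (Z : UnitFieldCond D) : Type (u + 1) where
  ι : Type u
  U : ι → Type u
  [ring : ∀ i, CommRing (U i)]
  [alg : ∀ i, Algebra k (U i)]
  finiteType : ∀ i, Algebra.FiniteType k (U i)
  good : ι → FieldCond D
  univ : ∀ i, LinePic D (U i)
  univ_rigid : ∀ i, univ i ∈ LinePic.rigid D (U i)
  univ_good : ∀ i, (good i).OnFibres (univ i)
  univ_mem : ∀ i, Z.OnFibres (univ i)
  isOpen_good : ∀ (i : ι) (R : Type u) [CommRing R] [Algebra k R] (x : LinePic D R),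
    IsOpen {p : PrimeSpectrum R |
      (good i).mem p.asIdeal.ResidueField
        (LinePic.map (IsScalarTower.toAlgHom k R p.asIdeal.ResidueField) x)}
  classify : ∀ (i : ι) (R : Type u) [CommRing R] [Algebra k R] (x : LinePic D R),
    x ∈ LinePic.rigid D R → (good i).OnFibres x →
      ∃! φ : U i →ₐ[k] R, LinePic.map φ (univ i) = x
  covers : ∀ (K : Type u) [Field K] [Algebra k K] (x : LinePic D K), Z.mem K x →
    ∃ i, (good i).mem K x

attribute [instance] ChartFamily.ring ChartFamily.alg

end Fermat.Agent.Jac
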