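import Fermat.Agent.Jac.Euler.Classes
import Fermat.Agent.Jac.Rep.Cut
import Fermat.Agent.Jac.Sheaf.ConstFunctions

/-!
# The conditions `degree zero` and `no cohomology after a constant translation`
-/

set_option autoImplicit false

noncomputable section

universe u

open TensorProduct

namespace Fermat.Agent.Jac

variable {k : Type u} [Field k] {D : CurveData.{u} k}

theorem CurveData.h0Const (D : CurveData.{u} k) : D.H0Const := fun R _ _ a b h => by
  obtain ⟨r, ha, hb⟩ := LineData.exists_const_of_mem_H0 R h
  exact ⟨r, ha.symm, hb.symm⟩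

namespace LineData

variable {R : Type u} [CommRing R] [Algebra k R]

/-- Tensoring with a twisted unit is twisting. -/
def tensorTwistUnit (L : LineData D R) (m : ℕ) :
    Iso (L.tensor ((LineData.unit : LineData D R).twist m)) (L.twist m) :=
  isoOfTensor (L' := (LineData.unit : LineData D R).twist m) (K := L.twist m)
    (TensorProduct.rid (D.AR R) L.M) (TensorProduct.rid (D.AR₁ R) L.N)
    fun i j a b a' b' hm hm' => by
      have h' := hm.smul (unit_rel_iff.mp ((twist_rel_iff _ m).mp hm'))
      rw [show j + m + i = i + j + m by ring] at h'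
      exact (twist_rel_iff L m).mpr h'

end LineData

namespace LinePic

variable {R R' K K' : Type u} [CommRing R] [Algebra k R] [CommRing R'] [Algebra k R']
  [Field K] [Algebra k K] [Field K'] [Algebra k K']

/-- The class of the unit twisted `m` times. -/
def twistOne (D : CurveData.{u} k) (R : Type u) [CommRing R] [Algebra k R] (m : ℕ) : LinePic D R :=
  mk ((LineData.unit : LineData D R).twist m)

theorem map_twistOne (φ : R →ₐ[k] R') (m : ℕ) : map φ (twistOne D R m) = twistOne D R' m :=
  map_mk ((LineData.Pullback.unit φ).twist m)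

theorem mk_mul_twistOne (L : LineData D R) (m : ℕ) :
    mk L * twistOne D R m = mk (L.twist m) :=
  mk_eq_mk.mpr ⟨L.tensorTwistUnit m⟩

theorem χ_mul_twistOne (x : LinePic D K) (m : ℕ) :
    χ (x * twistOne D K m) = χ x + m * D.d := by
  obtain ⟨L, rfl⟩ := mk_surjective x
  rw [mk_mul_twistOne, χ_mk, χ_mk, LineData.χ_twist]

theorem χ_one_eq (D : CurveData.{u} k) (K : Type u) [Field K] [Algebra k K] :
    χ (1 : LinePic D K) = χ (1 : LinePic D k) := by
  rw [← map_one (map (Algebra.ofId k K) : LinePic D k →* LinePic D K), χ_map_field]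

theorem χ_mul_prod_ptClass (x : LinePic D K) (l : List ((D.A →ₐ[k] k) ⊕ (D.A₁ →ₐ[k] k))) :
    χ (x * map (Algebra.ofId k K) (l.map ptClass).prod) = χ x - l.length := by
  induction l generalizing x with
  | nil => simp
  | cons φ l ih =>
    rw [List.map_cons, List.prod_cons, map_mul, ← mul_assoc, ih, χ_mul_map_ptClass,
      List.length_cons]
    push_cast
    ring

/-- The translation given by a twist and a list of points. -/
def translation (D : CurveData.{u} k) (p : ℕ × List ((D.A →ₐ[k] k) ⊕ (D.A₁ →ₐ[k] k))) :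
    LinePic D k := twistOne D k p.1 * (p.2.map ptClass).prod

theorem χ_mul_translation (x : LinePic D K) (p : ℕ × List ((D.A →ₐ[k] k) ⊕ (D.A₁ →ₐ[k] k))) :
    χ (x * map (Algebra.ofId k K) (translation D p)) = χ x + p.1 * D.d - p.2.length := by
  rw [translation, map_mul, map_twistOne, ← mul_assoc, χ_mul_prod_ptClass, χ_mul_twistOne]

theorem noCoh_map_iff (φ : K →ₐ[k] K') (x : LinePic D K) : NoCoh (map φ x) ↔ NoCoh x := by
  obtain ⟨U, -, hU⟩ := exists_isOpen_noCoh x
  let q : PrimeSpectrum K := ⟨⊥, Ideal.isPrime_bot⟩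
  have h := hU K (AlgHom.id k K) q
    ((RingHom.injective_iff_ker_eq_bot _).mp (AlgHom.id k K).toRingHom.injective).symm
  rw [map_id] at h
  rw [h]
  exact hU K' φ q ((RingHom.injective_iff_ker_eq_bot _).mp φ.toRingHom.injective).symm

end LinePic



/-- Degree zero: the same Euler characteristic as the trivial class. -/
def degZero (D : CurveData.{u} k) : UnitFieldCond D where
  mem K _ _ x := LinePic.χ x = LinePic.χ (1 : LinePic D k)
  invariant K K' _ _ _ _ φ x := by rw [LinePic.χ_map_field]
  one_mem K _ _ := LinePic.χ_one_eq D K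

/-- No cohomology after translation by a constant class. -/
def translatedNoCoh (E : LinePic D k) : FieldCond D where
  mem K _ _ x := LinePic.NoCoh (x * LinePic.map (Algebra.ofId k K) E)
  invariant K K' _ _ _ _ φ x := by
    rw [show LinePic.map (Algebra.ofId k K') E = LinePic.map φ (LinePic.map (Algebra.ofId k K) E) by
      rw [LinePic.map_map, Subsingleton.elim (φ.comp (Algebra.ofId k K)) (Algebra.ofId k K')],
      ← map_mul, LinePic.noCoh_map_iff]

theorem isOpen_translatedNoCoh (E : LinePic D k) (R : Type u) [CommRing R] [Algebra k R]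
    (x : LinePic D R) :
    IsOpen {p : PrimeSpectrum R | (translatedNoCoh E).mem p.asIdeal.ResidueField
      (LinePic.map (IsScalarTower.toAlgHom k R p.asIdeal.ResidueField) x)} := by
  obtain ⟨U, hU, hU'⟩ :=
    LinePic.exists_isOpen_noCoh (x * LinePic.map (Algebra.ofId k R) E)
  convert hU using 1
  ext p
  show LinePic.NoCoh _ ↔ _
  rw [← hU' _ (IsScalarTower.toAlgHom k R p.asIdeal.ResidueField) p
    (Ideal.ker_algebraMap_residueField p.asIdeal).symm, map_mul, LinePic.map_map,
    Subsingleton.elim ((IsScalarTower.toAlgHom k R p.asIdeal.ResidueField).comp (Algebra.ofId k R))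
      (Algebra.ofId k p.asIdeal.ResidueField)]

/-- Translations making a degree zero class cohomology free are indexed by a twist and points. -/
theorem exists_translation [IsAlgClosed k] {K : Type u} [Field K] [Algebra k K] (x : LinePic D K)
    (hx : (degZero D).mem K x) :
    ∃ p : ℕ × List ((D.A →ₐ[k] k) ⊕ (D.A₁ →ₐ[k] k)),
      LinePic.χ (1 : LinePic D k) + p.1 * D.d - p.2.length = 0 ∧
      (translatedNoCoh (LinePic.translation D p)).mem K x := by
  obtain ⟨L, rfl⟩ := LinePic.mk_surjective x
  obtain ⟨m, hm⟩ := L.exists_twist_surjective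
  have h1 : LinePic.h1 (LinePic.mk L * LinePic.twistOne D K m) = 0 := by
    rw [LinePic.mk_mul_twistOne, LinePic.h1_mk]
    exact (LineData.h1_eq_zero_iff _).mpr (hm m le_rfl)
  obtain ⟨l, -, hL⟩ := LinePic.exists_noCoh_mul (Algebra.ofId k K) _ h1
  let p : ℕ × List ((D.A →ₐ[k] k) ⊕ (D.A₁ →ₐ[k] k)) :=
    (m, l.map fun φ => Sum.inl (φ.comp D.i₀))
  have e : LinePic.mk L * LinePic.map (Algebra.ofId k K) (LinePic.translation D p) =
      LinePic.mk L * LinePic.twistOne D K m *
        LinePic.map (Algebra.ofId k K)
          (l.map fun φ => LinePic.ptClass (Sum.inl (φ.comp D.i₀))).prod := by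
    rw [LinePic.translation, map_mul, LinePic.map_twistOne, ← mul_assoc, List.map_map]
    rfl
  rw [← e] at hL
  refine ⟨p, ?_, hL⟩
  have h2 := ((LinePic.noCoh_field_iff _).mp hL).2
  rw [LinePic.χ_mul_translation, show LinePic.χ (LinePic.mk L) = _ from hx] at h2
  exact h2

end Fermat.Agent.Jac
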