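import Fermat.Prelude.Def_AlgebraicGeometry_RelPicardAlgEquivZeroCut
import Fermat.Agent.Jac.Rep.DegCond
import Fermat.Agent.Jac.Rep.Points

/-!
# Algebraic equivalence to zero and degree zero on the fibres

`cut_degZero_of_fibrewiseAlgEquivZero`: the Euler characteristic is constant along an irreducible
parameter scheme. `fibrewiseAlgEquivZero_of_cut`: the Poincare bundle, pulled back to an integral
scheme covering the representing scheme, is an algebraic equivalence to zero.
-/

set_option autoImplicit false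
set_option linter.style.haveILetI false

noncomputable section

universe u

open CategoryTheory CategoryTheory.Limits AlgebraicGeometry NeronModelInfra AlgebraicGeometry.RelPicard
  GoodReductionJacobian

namespace Fermat.Agent.Jac.CurveModel

theorem algEquiv_baseChangeSnd_fst {R : Type u} [CommRing R] {C T T' : Scheme.{u}}
    (c : C ⟶ Spec (CommRingCat.of R)) {t : T ⟶ Spec (CommRingCat.of R)}
    {t' : T' ⟶ Spec (CommRingCat.of R)} (s : SchemeHomOver t' t) :
    baseChangeSnd c s ≫ pullback.fst c t = pullback.fst c t' :=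
  (pullback.lift_fst _ _ _).trans (Category.comp_id _)

theorem algEquiv_baseChangeSnd_snd {R : Type u} [CommRing R] {C T T' : Scheme.{u}}
    (c : C ⟶ Spec (CommRingCat.of R)) {t : T ⟶ Spec (CommRingCat.of R)}
    {t' : T' ⟶ Spec (CommRingCat.of R)} (s : SchemeHomOver t' t) :
    baseChangeSnd c s ≫ pullback.snd c t = pullback.snd c t' ≫ s.1 :=
  pullback.lift_snd _ _ _

variable {k : Type u} [Field k] {C : Scheme.{u}} {c : C ⟶ Spec (CommRingCat.of k)}
  {ε : SchemeHomOver (𝟙 (Spec (CommRingCat.of k))) c}
variable (m : CurveModel c ε)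
variable {T : Scheme.{u}} {t : T ⟶ Spec (CommRingCat.of k)}
  {L : (pullback c t).Modules} (hL : Scheme.Modules.IsInvertible L)

/-- The class of an invertible sheaf at a point of the base. -/
def picAt {R : Type u} [CommRing R] [Algebra k R] (s : SchemeHomOver (structMap k R) t) :
    LinePic m.D R :=
  m.picClass ((Scheme.Modules.pullback (baseChangeSnd c s)).obj L) (hL.pullback _)

theorem map_picAt {R R' : Type u} [CommRing R] [Algebra k R] [CommRing R'] [Algebra k R']
    (s : SchemeHomOver (structMap k R) t) (φ : R →ₐ[k] R') :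
    LinePic.map φ (m.picAt hL s) = m.picAt hL (postComp s (specHomOver φ)) := by
  rw [picAt, map_picClass]
  exact (m.picClass_eq_iff _ _).mpr ⟨(Scheme.Modules.pullbackComp _ _).app L ≪≫
    (Scheme.Modules.pullbackCongr (baseChangeSnd_comp c s (specHomOver φ))).app L⟩

/-- Field points in one affine open of an irreducible base have the same Euler characteristic. -/
theorem χ_picAt_eq_of_mem [IrreducibleSpace T] {W : T.Opens} (hW : IsAffineOpen W) {K K' : Type u}
    [Field K] [Algebra k K] [Field K'] [Algebra k K'] (s : SchemeHomOver (structMap k K) t)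
    (s' : SchemeHomOver (structMap k K') t) (hs : Set.range s.1 ⊆ W) (hs' : Set.range s'.1 ⊆ W) :
    LinePic.χ (m.picAt hL s) = LinePic.χ (m.picAt hL s') := by
  letI := OpenRing.algebraOver t W
  obtain ⟨φ, hφ⟩ := exists_specHomOver_openPoint hW s hs
  obtain ⟨φ', hφ'⟩ := exists_specHomOver_openPoint hW s' hs'
  rw [← hφ, ← hφ', ← m.map_picAt, ← m.map_picAt,
    LinePic.χ_map φ _ (q := ⟨RingHom.ker φ, RingHom.ker_isPrime _⟩) rfl,
    LinePic.χ_map φ' _ (q := ⟨RingHom.ker φ', RingHom.ker_isPrime _⟩) rfl]
  have hpre : IsPreirreducible (Set.univ : Set (PrimeSpectrum (OpenRing W))) :=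
    (PreirreducibleSpace.isPreirreducible_univ (X := T)).preimage
      (hW.fromSpec.isOpenEmbedding)
  exact (LinePic.isLocallyConstant_degree _).apply_eq_of_isPreconnected hpre.isPreconnected
    (Set.mem_univ _) (Set.mem_univ _)

include hL in
/-- The Euler characteristic is constant on the field points of an irreducible base. -/
theorem χ_picAt_eq [IrreducibleSpace T] {K K' : Type u}
    [Field K] [Algebra k K] [Field K'] [Algebra k K'] (s : SchemeHomOver (structMap k K) t)
    (s' : SchemeHomOver (structMap k K') t) :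
    LinePic.χ (m.picAt hL s) = LinePic.χ (m.picAt hL s') := by
  have hrange : ∀ {F : Type u} [Field F] [Algebra k F] (r : SchemeHomOver (structMap k F) t)
      (W : T.Opens), r.1 (IsLocalRing.closedPoint F) ∈ W → Set.range r.1 ⊆ W := by
    rintro F _ _ r W h _ ⟨p, rfl⟩
    rwa [Subsingleton.elim (α := PrimeSpectrum F) p (IsLocalRing.closedPoint F)]
  obtain ⟨W, hW, hsW, -⟩ := exists_affine_le (U := (⊤ : T.Opens))
    (x := s.1 (IsLocalRing.closedPoint K)) trivial
  obtain ⟨W', hW', hsW', -⟩ := exists_affine_le (U := (⊤ : T.Opens))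
    (x := s'.1 (IsLocalRing.closedPoint K')) trivial
  obtain ⟨z, hz, hz'⟩ := nonempty_preirreducible_inter W.isOpen W'.isOpen ⟨_, hsW⟩ ⟨_, hsW'⟩
  let r : Spec (T.residueField z) ⟶ T := T.fromSpecResidueField z
  letI : Algebra k (T.residueField z) := (Spec.preimage (r ≫ t)).hom.toAlgebra
  let sz : SchemeHomOver (structMap k (T.residueField z)) t := ⟨r, (Spec.map_preimage _).symm⟩
  have hzc : sz.1 (IsLocalRing.closedPoint (T.residueField z)) = z :=
    Scheme.fromSpecResidueField_apply _ _
  rw [m.χ_picAt_eq_of_mem hL hW s sz (hrange s W hsW) (hrange sz W (hzc.symm ▸ hz)),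
    m.χ_picAt_eq_of_mem hL hW' sz s' (hrange sz W' (hzc.symm ▸ hz')) (hrange s' W' hsW')]

/-- Algebraic equivalence to zero implies degree zero. -/
theorem cut_degZero_of_fibrewiseAlgEquivZero (M : RigidifiedLineBundle c ε t)
    (hM : FibrewiseAlgEquivZero M) : (m.cut (degZero m.D)).P t M := by
  intro K₀ _ _ s₀
  let K := AlgebraicClosure K₀
  let φ : K₀ →ₐ[k] K := IsScalarTower.toAlgHom k K₀ K
  refine ((degZero m.D).invariant K₀ K φ _).mp ?_
  rw [m.map_classAt]
  set s := postComp s₀ (specHomOver φ)
  show LinePic.χ (m.classAt M s) = _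
  let a' := pullback.snd c (structMap k K)
  let e : pullback c (structMap k K) ⟶ pullback (pullback.snd c t) s.1 :=
    pullback.lift (baseChangeSnd c s) a' (algEquiv_baseChangeSnd_snd c s)
  have he : e ≫ fibreAt c t s.1 = a' := pullback.lift_snd _ _ _
  have hefst : e ≫ pullback.fst (pullback.snd c t) s.1 = baseChangeSnd c s := pullback.lift_fst _ _ _
  obtain ⟨T', h, hft, hgi, N, hN, t₀, t₁, ⟨e₀⟩, ⟨e₁⟩⟩ :=
    (hM K s.1).of_iso (Iso.refl _) |>.pullback e he
  have : IrreducibleSpace T' := GeometricallyIrreducible.irreducibleSpace_of_subsingleton h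
  let t'' : T' ⟶ Spec (CommRingCat.of k) := h ≫ structMap k K
  let e₂ : pullback c t'' ⟶ pullback a' h :=
    pullback.lift (pullback.lift (pullback.fst c t'') (pullback.snd c t'' ≫ h)
      (by rw [Category.assoc]; exact pullback.condition)) (pullback.snd c t'') (pullback.lift_snd _ _ _)
  let pt : ∀ (x : SchemeHomOver (𝟙 (Spec (CommRingCat.of K))) h),
      SchemeHomOver (structMap k K) t'' := fun x => ⟨x.1, by
    show x.1 ≫ h ≫ structMap k K = _
    rw [← Category.assoc, x.2, Category.id_comp]⟩
  let e₃ : pullback c (structMap k K) ⟶ pullback a' (𝟙 (Spec (CommRingCat.of K))) :=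
    pullback.lift (𝟙 _) a' (by rw [Category.id_comp, Category.comp_id])
  have hsq : ∀ x, baseChangeSnd c (pt x) ≫ e₂ = e₃ ≫ baseChangeSnd a' x := by
    intro x
    apply pullback.hom_ext
    · rw [Category.assoc, Category.assoc, algEquiv_baseChangeSnd_fst, pullback.lift_fst,
        pullback.lift_fst]
      apply pullback.hom_ext
      · rw [Category.assoc, pullback.lift_fst, algEquiv_baseChangeSnd_fst, Category.id_comp]
      · rw [Category.assoc, pullback.lift_snd, ← Category.assoc, algEquiv_baseChangeSnd_snd,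
          Category.assoc, Category.id_comp]
        exact (congrArg (a' ≫ ·) x.2).trans (Category.comp_id _)
    · rw [Category.assoc, Category.assoc, algEquiv_baseChangeSnd_snd, pullback.lift_snd,
        algEquiv_baseChangeSnd_snd, pullback.lift_snd_assoc]
  have key : ∀ x, LinePic.χ (m.picAt (hN.pullback e₂) (pt x)) =
      LinePic.χ (m.picClass ((Scheme.Modules.pullback e₃).obj
        ((Scheme.Modules.pullback (baseChangeSnd a' x)).obj N)) ((hN.pullback _).pullback _)) := by
    intro x
    refine congrArg LinePic.χ ((m.picClass_eq_iff _ _).mpr ⟨?_⟩)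
    exact (Scheme.Modules.pullbackComp _ _).app N ≪≫
      (Scheme.Modules.pullbackCongr (hsq x)).app N ≪≫
      ((Scheme.Modules.pullbackComp _ _).app N).symm
  have h₀ := key t₀
  have h₁ := key t₁
  rw [(m.picClass_eq_iff ((hN.pullback _).pullback _) (Scheme.Modules.isInvertible_unit _)).mpr
    ⟨(Scheme.Modules.pullback e₃).mapIso e₀ ≪≫ Scheme.Modules.pullbackUnitIso e₃⟩,
    m.picClass_unit, LinePic.χ_one_eq] at h₀
  have heq : e₃ ≫ pullback.fst a' (𝟙 (Spec (CommRingCat.of K))) = 𝟙 _ := pullback.lift_fst _ _ _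
  rw [(m.picClass_eq_iff ((hN.pullback _).pullback _) (M.pullbackAlong s).isInvertible).mpr
    ⟨(Scheme.Modules.pullback e₃).mapIso e₁ ≪≫ (Scheme.Modules.pullbackComp _ _).app _ ≪≫
      (Scheme.Modules.pullbackCongr heq).app _ ≪≫ (Scheme.Modules.pullbackId _).app _ ≪≫
      (Scheme.Modules.pullbackComp _ _).app M.L ≪≫
      (Scheme.Modules.pullbackCongr hefst).app M.L⟩] at h₁
  rw [← h₀, m.χ_picAt_eq (hN.pullback e₂) (pt t₀) (pt t₁)]
  exact h₁.symm

/-- Degree zero implies algebraic equivalence to zero, given an integral cover of the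
representing scheme. -/
theorem fibrewiseAlgEquivZero_of_cut {J : RelativePic0Designation k c}
    (h : RepresentsRelSubPic c ε (m.cut (degZero m.D)) J)
    (hS : ∃ (S : Scheme.{u}) (s : S ⟶ Spec (CommRingCat.of k)) (v : SchemeHomOver s J.toBase)
      (o : SchemeHomOver (𝟙 (Spec (CommRingCat.of k))) s), IsProper s ∧ LocallyOfFiniteType s ∧
        GeometricallyIntegral s ∧ Surjective v.1 ∧
        postComp v o = ⟨J.zeroSection, J.zeroSection_toBase⟩)
    (M : RigidifiedLineBundle c ε t) (hM : (m.cut (degZero m.D)).P t M) :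
    FibrewiseAlgEquivZero M := by
  obtain ⟨S, sS, v, o, -, hSft, hSgi, hv, ho⟩ := hS
  intro K _ _ s
  letI : Algebra k K := (Spec.preimage (s ≫ t)).hom.toAlgebra
  let sp : SchemeHomOver (structMap k K) t := ⟨s, (Spec.map_preimage _).symm⟩
  obtain ⟨P, hP⟩ := m.exists_pointClass_eq h (m.classAt_mem_rigid M sp)
    ((m.cut_P_iff _ t M).mp hM K sp)
  -- a point of `S` over the classifying point
  have : LocallyOfFiniteType (v.1 ≫ J.toBase) := by rw [v.2]; exact hSft
  have : LocallyOfFiniteType v.1 := locallyOfFiniteType_of_comp v.1 J.toBase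
  let F := pullback v.1 P.1
  let hF : F ⟶ Spec (CommRingCat.of K) := pullback.snd v.1 P.1
  have : JacobsonSpace F := LocallyOfFiniteType.jacobsonSpace hF
  have : Surjective hF := inferInstance
  obtain ⟨p, -⟩ := hF.surjective (IsLocalRing.closedPoint K)
  obtain ⟨x, -, hx⟩ := nonempty_inter_closedPoints (X := F) (Z := Set.univ) ⟨p, trivial⟩
    isClosed_univ.isLocallyClosed
  let σ : Spec (CommRingCat.of K) ⟶ S := pointOfClosedPoint hF x hx ≫ pullback.fst v.1 P.1
  have hσ : σ ≫ v.1 = P.1 := by
    simp only [σ, Category.assoc, pullback.condition]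
    rw [← Category.assoc, show pointOfClosedPoint hF x hx ≫ pullback.snd v.1 P.1 = 𝟙 _ from
      pointOfClosedPoint_comp hF x hx, Category.id_comp]
  have hσs : σ ≫ sS = structMap k K := by rw [← v.2, ← Category.assoc, hσ, P.2]
  -- the parameter scheme
  let T' := pullback sS (structMap k K)
  let h' : T' ⟶ Spec (CommRingCat.of K) := pullback.snd sS (structMap k K)
  let t'' : T' ⟶ Spec (CommRingCat.of k) := h' ≫ structMap k K
  let g : SchemeHomOver t'' J.toBase := ⟨pullback.fst sS (structMap k K) ≫ v.1, by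
    rw [Category.assoc, v.2]; exact pullback.condition⟩
  let a := fibreAt c t s
  let fC : pullback (pullback.snd c t) s ⟶ C :=
    pullback.fst (pullback.snd c t) s ≫ pullback.fst c t
  have hfC : fC ≫ c = a ≫ structMap k K := by
    show (pullback.fst (pullback.snd c t) s ≫ pullback.fst c t) ≫ c = _
    rw [Category.assoc, pullback.condition, pullback.condition_assoc]
    exact congrArg _ sp.2
  let e₅ : pullback a h' ⟶ pullback c t'' :=
    pullback.lift (pullback.fst a h' ≫ fC) (pullback.snd a h') (by
      rw [Category.assoc, hfC, ← Category.assoc, pullback.condition, Category.assoc])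
  let e₄ : pullback a (𝟙 (Spec (CommRingCat.of K))) ⟶ pullback c (structMap k K) :=
    pullback.lift (pullback.fst a _ ≫ fC) (pullback.snd a _) (by
      rw [Category.assoc, hfC, ← Category.assoc, pullback.condition, Category.comp_id])
  let N := h.poincare.pullbackAlong g
  let t₀ : SchemeHomOver (𝟙 (Spec (CommRingCat.of K))) h' :=
    ⟨pullback.lift (structMap k K ≫ o.1) (𝟙 _)
      (by rw [Category.assoc, o.2, Category.comp_id, Category.id_comp]), pullback.lift_snd _ _ _⟩
  let t₁ : SchemeHomOver (𝟙 (Spec (CommRingCat.of K))) h' :=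
    ⟨pullback.lift σ (𝟙 _) (by rw [hσs, Category.id_comp]), pullback.lift_snd _ _ _⟩
  let pt : ∀ (x : SchemeHomOver (𝟙 (Spec (CommRingCat.of K))) h'),
      SchemeHomOver (structMap k K) t'' := fun x => ⟨x.1, by
    show x.1 ≫ h' ≫ structMap k K = _
    rw [← Category.assoc, x.2, Category.id_comp]⟩
  have hsq : ∀ x, baseChangeSnd a x ≫ e₅ = e₄ ≫ baseChangeSnd c (pt x) := by
    intro x
    apply pullback.hom_ext
    · rw [Category.assoc, Category.assoc, pullback.lift_fst, algEquiv_baseChangeSnd_fst,
        pullback.lift_fst, ← Category.assoc, algEquiv_baseChangeSnd_fst]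
    · rw [Category.assoc, Category.assoc, pullback.lift_snd, algEquiv_baseChangeSnd_snd,
        algEquiv_baseChangeSnd_snd, pullback.lift_snd_assoc]
  have key : ∀ (x : SchemeHomOver (𝟙 (Spec (CommRingCat.of K))) h')
      (L' : (pullback c (structMap k K)).Modules) (hL' : Scheme.Modules.IsInvertible L'),
      m.pointClass h (postComp g (pt x)) = m.picClass L' hL' →
      Nonempty ((Scheme.Modules.pullback (baseChangeSnd a x)).obj
        ((Scheme.Modules.pullback e₅).obj N.L) ≅ (Scheme.Modules.pullback e₄).obj L') := by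
    intro x L' hL' hx'
    rw [← m.classAt_poincare_pullback] at hx'
    obtain ⟨i⟩ := (m.picClass_eq_iff (N.pullbackAlong (pt x)).isInvertible hL').mp hx'
    exact ⟨(Scheme.Modules.pullbackComp _ _).app N.L ≪≫
      (Scheme.Modules.pullbackCongr (hsq x)).app N.L ≪≫
      ((Scheme.Modules.pullbackComp _ _).app N.L).symm ≪≫
      (Scheme.Modules.pullback e₄).mapIso i⟩
  have hg₀ : postComp g (pt t₀) =
      postComp ⟨J.zeroSection, J.zeroSection_toBase⟩ ⟨structMap k K, Category.comp_id _⟩ := by
    rw [← ho]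
    apply Subtype.ext
    show pullback.lift _ _ _ ≫ pullback.fst _ _ ≫ v.1 = structMap k K ≫ o.1 ≫ v.1
    rw [pullback.lift_fst_assoc, Category.assoc]
  have hg₁ : postComp g (pt t₁) = P := by
    apply Subtype.ext
    show pullback.lift _ _ _ ≫ pullback.fst _ _ ≫ v.1 = P.1
    rw [pullback.lift_fst_assoc, hσ]
  obtain ⟨i₀⟩ := key t₀ (SheafOfModules.unit _) (Scheme.Modules.isInvertible_unit _)
    (by rw [hg₀, m.pointClass_zero, m.picClass_unit])
  obtain ⟨i₁⟩ := key t₁ (M.pullbackAlong sp).L (M.pullbackAlong sp).isInvertible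
    (by rw [hg₁, hP]; rfl)
  have heq : e₄ ≫ baseChangeSnd c sp =
      pullback.fst a (𝟙 _) ≫ pullback.fst (pullback.snd c t) s := by
    apply pullback.hom_ext
    · rw [Category.assoc, algEquiv_baseChangeSnd_fst, pullback.lift_fst, Category.assoc]
    · rw [Category.assoc, algEquiv_baseChangeSnd_snd, pullback.lift_snd_assoc, Category.assoc]
      show pullback.snd a _ ≫ s = _
      rw [pullback.condition (f := pullback.snd c t) (g := s), ← Category.assoc,
        show pullback.fst a (𝟙 _) ≫ pullback.snd (pullback.snd c t) s = pullback.snd a (𝟙 _) by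
          rw [← Category.comp_id (pullback.snd a (𝟙 _))]; exact pullback.condition]
  exact ⟨T', h', inferInstance, inferInstance, (Scheme.Modules.pullback e₅).obj N.L,
    N.isInvertible.pullback _, t₀, t₁, ⟨i₀ ≪≫ Scheme.Modules.pullbackUnitIso _⟩,
    ⟨i₁ ≪≫ (Scheme.Modules.pullbackComp _ _).app M.L ≪≫
      (Scheme.Modules.pullbackCongr heq).app M.L ≪≫
      ((Scheme.Modules.pullbackComp _ _).app M.L).symm⟩⟩

end Fermat.Agent.Jac.CurveModel
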