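import Fermat.Agent.Jac.Rep.DegCond

/-!
# Charts for the degree zero classes from a universal class without cohomology
-/

set_option autoImplicit false

noncomputable section

universe u

namespace Fermat.Agent.Jac

variable {k : Type u} [Field k]

/-- A scheme classifying rigid line bundles without cohomology. -/
structure NoCohModel (D : CurveData.{u} k) : Type (u + 1) where
  U : Type u
  [ring : CommRing U]
  [alg : Algebra k U]
  finiteType : Algebra.FiniteType k U
  L : LineData D U
  noCoh : Function.Bijective L.δ
  rigid : L.Rigid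
  classify : ∀ (R : Type u) [CommRing R] [Algebra k R] (L' : LineData D R),
    Function.Bijective L'.δ → L'.Rigid → ∃! φ : U →ₐ[k] R, Nonempty (LineData.Pullback φ L L')

attribute [instance] NoCohModel.ring NoCohModel.alg

variable [IsAlgClosed k] {D : CurveData.{u} k}

theorem NoCohModel.translation_good (W : NoCohModel D) (E : LinePic D k) :
    (translatedNoCoh E).OnFibres
      (LinePic.mk W.L * (LinePic.map (Algebra.ofId k W.U) E)⁻¹) := fun K _ _ φ => by
  show LinePic.NoCoh _
  rw [map_mul, map_inv, LinePic.map_map, Subsingleton.elim (φ.comp (Algebra.ofId k W.U))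
    (Algebra.ofId k K), inv_mul_cancel_right]
  exact LinePic.NoCoh.map ((LinePic.noCoh_mk W.L).mpr W.noCoh) φ

/-- The translations of the universal class cover the degree zero classes. -/
def NoCohModel.chartFamily (W : NoCohModel D) : ChartFamily D (degZero D) where
  ι := {p : ℕ × List ((D.A →ₐ[k] k) ⊕ (D.A₁ →ₐ[k] k)) //
    LinePic.χ (1 : LinePic D k) + p.1 * D.d - p.2.length = 0}
  U := fun _ => W.U
  finiteType := fun _ => W.finiteType
  good := fun p => translatedNoCoh (LinePic.translation D p.1)
  univ := fun p =>
    LinePic.mk W.L * (LinePic.map (Algebra.ofId k W.U) (LinePic.translation D p.1))⁻¹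
  univ_rigid := fun p => (LinePic.rigidGroup D W.U).mul_mem (LinePic.mk_mem_rigid_iff.mpr W.rigid)
    ((LinePic.rigidGroup D W.U).inv_mem (LinePic.map_mem_rigid _ (LinePic.rigid_of_field _)))
  univ_good := fun p => W.translation_good _
  univ_mem := fun p K _ _ φ => by
    have h : LinePic.NoCoh (_ * LinePic.map (Algebra.ofId k K) (LinePic.translation D p.1)) :=
      W.translation_good (LinePic.translation D p.1) K φ
    have h2 := ((LinePic.noCoh_field_iff _).mp h).2
    rw [LinePic.χ_mul_translation] at h2
    have h3 := p.2
    show LinePic.χ _ = _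
    linarith
  isOpen_good := fun p R _ _ x => isOpen_translatedNoCoh _ R x
  classify := fun p R _ _ x hx hg => by
    have hy : LinePic.NoCoh (x * LinePic.map (Algebra.ofId k R) (LinePic.translation D p.1)) :=
      LinePic.noCoh_of_forall fun K _ _ φ => by
        rw [map_mul, LinePic.map_map, Subsingleton.elim (φ.comp (Algebra.ofId k R))
          (Algebra.ofId k K)]
        exact hg K φ
    have hyr : x * LinePic.map (Algebra.ofId k R) (LinePic.translation D p.1) ∈
        LinePic.rigid D R :=
      mul_mem hx (LinePic.map_mem_rigid _ (LinePic.rigid_of_field _))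
    obtain ⟨L', hL', hL'r⟩ := hyr
    rw [← hL'] at hy
    have e : ∀ φ : W.U →ₐ[k] R, LinePic.map φ
        (LinePic.mk W.L * (LinePic.map (Algebra.ofId k W.U) (LinePic.translation D p.1))⁻¹) = x ↔
        Nonempty (LineData.Pullback φ W.L L') := fun φ => by
      rw [map_mul, map_inv, LinePic.map_map, Subsingleton.elim (φ.comp (Algebra.ofId k W.U))
        (Algebra.ofId k R), mul_inv_eq_iff_eq_mul, ← hL']
      exact ⟨LinePic.exists_pullback_of_map_eq, fun ⟨q⟩ => LinePic.map_mk q⟩
    exact (existsUnique_congr e).mpr (W.classify R L' hy hL'r)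
  covers := fun K _ _ x hx => by
    obtain ⟨p, hp, hgood⟩ := exists_translation x hx
    exact ⟨⟨p, hp⟩, hgood⟩

end Fermat.Agent.Jac
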