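import Fermat.Agent.Jac.Rep.DegChart
import Fermat.Agent.Jac.Chart.Main

/-!
# The chart family of degree zero classes
-/

set_option autoImplicit false

noncomputable section

universe u

namespace Fermat.Agent.Jac

variable {k : Type u} [Field k] [IsAlgClosed k]

theorem nonempty_degZero_chartFamily (D : CurveData.{u} k) :
    Nonempty (ChartFamily D (degZero D)) := by
  obtain ⟨U, _, _, hft, Lu, hno, hrig, hcl⟩ := Chart.exists_universal_noCoh D
  exact ⟨NoCohModel.chartFamily
    { U := U, finiteType := hft, L := Lu, noCoh := hno, rigid := hrig, classify := hcl }⟩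

end Fermat.Agent.Jac
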