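import Fermat.Agent.Jac.Rep.Cut
import Fermat.Agent.Jac.Sheaf.DescentClass

/-!
# The cut Picard functor on schemes, as a small Zariski sheaf

An element over `T` is a map `t : T ⟶ Spec k` with the class of a rigidified bundle in the cut;
two are equal when the maps agree and the classes at all affine points agree.
-/

set_option autoImplicit false
set_option linter.style.haveILetI false
set_option linter.unusedVariables false

noncomputable section

universe u

open CategoryTheory CategoryTheory.Limits AlgebraicGeometry Opposite TopologicalSpace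
  NeronModelInfra AlgebraicGeometry.RelPicard

namespace Fermat.Agent.Jac

variable {k : Type u} [Field k] {C : Scheme.{u}} {c : C ⟶ Spec (CommRingCat.of k)}
  {ε : SchemeHomOver (𝟙 (Spec (CommRingCat.of k))) c}

namespace CurveModel

variable (m : CurveModel c ε)

theorem nonempty_iso_of_classAt_ofOpenSpec {T : Scheme.{u}} {t : T ⟶ Spec (CommRingCat.of k)}
    {W : T.Opens} (hW : IsAffineOpen W) {M M' : RigidifiedLineBundle c ε (W.ι ≫ t)}
    (h : letI := OpenRing.algebraOver t W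
      m.classAt M (ofOpenSpec t hW) = m.classAt M' (ofOpenSpec t hW)) :
    Nonempty (M.L ≅ M'.L) := by
  letI := OpenRing.algebraOver t W
  have hcomp : ∀ N : RigidifiedLineBundle c ε (W.ι ≫ t),
      Nonempty (((N.pullbackAlong (ofOpenSpec t hW)).pullbackAlong (toOpenSpec t hW)).L ≅ N.L) :=
    fun N => by
      obtain ⟨a⟩ := nonempty_pullbackAlong_comp N (ofOpenSpec t hW) (toOpenSpec t hW)
      obtain ⟨b⟩ := nonempty_pullbackAlong_id N
      rw [show postComp (ofOpenSpec t hW) (toOpenSpec t hW) =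
        (⟨𝟙 _, Category.id_comp _⟩ : SchemeHomOver (W.ι ≫ t) (W.ι ≫ t)) from
          Subtype.ext hW.isoSpec.hom_inv_id] at a
      exact ⟨a ≪≫ b⟩
  obtain ⟨e⟩ := RigidifiedLineBundle.pullbackAlong_congr (toOpenSpec t hW)
    ((m.picClass_eq_iff _ _).mp h)
  obtain ⟨a⟩ := hcomp M
  obtain ⟨b⟩ := hcomp M'
  exact ⟨a.symm ≪≫ e ≪≫ b⟩

theorem classAt_eq_of_classAt_cover (hH0 : m.D.H0Const) {T : Scheme.{u}}
    {t : T ⟶ Spec (CommRingCat.of k)} {M M' : RigidifiedLineBundle c ε t} {ι : Type*}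
    (U : ι → T.Opens) (hU : ∀ z : T, ∃ i, z ∈ U i)
    (h : ∀ (i : ι) (R : Type u) [CommRing R] [Algebra k R] (s : SchemeHomOver (structMap k R) t),
      Set.range s.1 ⊆ U i → m.classAt M s = m.classAt M' s)
    (R : Type u) [CommRing R] [Algebra k R] (s : SchemeHomOver (structMap k R) t) :
    m.classAt M s = m.classAt M' s :=
  m.classAt_congr (nonempty_iso_of_forall_affine_le (m.constFunctions hH0 t) M M' U hU
    fun i W hW hWU => m.nonempty_iso_of_classAt_openPoint hW
      (@h i (OpenRing W) _ (OpenRing.algebraOver t W) (openPoint t hW)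
        (hW.range_fromSpec.le.trans hWU))) s

/-- An element of the cut Picard functor. -/
structure CutPair (Z : UnitFieldCond m.D) (T : Scheme.{u}) : Type (u + 1) where
  t : T ⟶ Spec (CommRingCat.of k)
  M : RigidifiedLineBundle c ε t
  mem : (m.cut Z).P t M

namespace CutPair

variable {m} {Z : UnitFieldCond m.D} {T T' T'' : Scheme.{u}}

/-- Equality of elements. -/
def Rel (a b : CutPair m Z T) : Prop :=
  a.t = b.t ∧ ∀ (R : Type u) [CommRing R] [Algebra k R] (s : Spec (CommRingCat.of R) ⟶ T)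
    (ha : s ≫ a.t = structMap k R) (hb : s ≫ b.t = structMap k R),
    m.classAt a.M ⟨s, ha⟩ = m.classAt b.M ⟨s, hb⟩

theorem rel_equivalence : Equivalence (Rel (m := m) (Z := Z) (T := T)) where
  refl _ := ⟨rfl, fun _ _ _ _ _ _ => rfl⟩
  symm h := ⟨h.1.symm, fun R _ _ s ha hb => (h.2 R s hb ha).symm⟩
  trans {a b c'} h h' := ⟨h.1.trans h'.1, fun R _ _ s ha hc =>
    (h.2 R s ha (h.1 ▸ ha)).trans (h'.2 R s (h.1 ▸ ha) hc)⟩

/-- Restriction along a morphism. -/
def pull (f : T' ⟶ T) (a : CutPair m Z T) : CutPair m Z T' where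
  t := f ≫ a.t
  M := a.M.pullbackAlong ⟨f, rfl⟩
  mem := (m.cut Z).pullback_mem a.t (f ≫ a.t) ⟨f, rfl⟩ a.M a.mem

theorem classAt_pull (f : T' ⟶ T) (a : CutPair m Z T) {R : Type u} [CommRing R] [Algebra k R]
    (s : Spec (CommRingCat.of R) ⟶ T') (h : s ≫ f ≫ a.t = structMap k R) :
    m.classAt (a.pull f).M ⟨s, h⟩ =
      m.classAt a.M ⟨s ≫ f, (Category.assoc _ _ _).trans h⟩ :=
  m.classAt_pullbackAlong a.M _ _

theorem Rel.pull (f : T' ⟶ T) {a b : CutPair m Z T} (h : Rel a b) : Rel (a.pull f) (b.pull f) :=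
  ⟨congrArg (f ≫ ·) h.1, fun R _ _ s ha hb => by
    rw [classAt_pull f a s ha, classAt_pull f b s hb]
    exact h.2 R (s ≫ f) _ _⟩

end CutPair

/-- The setoid of elements. -/
def cutPairSetoid (Z : UnitFieldCond m.D) (T : Scheme.{u}) : Setoid (CutPair m Z T) :=
  ⟨CutPair.Rel, CutPair.rel_equivalence⟩

theorem small_cutPair (hH0 : m.D.H0Const) (Z : UnitFieldCond m.D) (T : Scheme.{u}) :
    Small.{u} (Quotient (m.cutPairSetoid Z T)) := by
  let β : (T ⟶ Spec (CommRingCat.of k)) → Type (u + 1) := fun t => ∀ W : T.affineOpens,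
    letI := OpenRing.algebraOver t W.1
    LinePic m.D (OpenRing W.1)
  have : ∀ t, Small.{u} (β t) := fun t => inferInstance
  let val : CutPair m Z T → Σ t, β t := fun a => ⟨a.t, fun W =>
    letI := OpenRing.algebraOver a.t W.1
    m.classAt a.M (openPoint a.t W.2)⟩
  have hval : ∀ a b, CutPair.Rel a b → val a = val b := by
    intro a b h
    obtain ⟨t, M, hM⟩ := a
    obtain ⟨t', M', hM'⟩ := b
    obtain ⟨h1, h2⟩ := h
    obtain rfl : t = t' := h1
    exact Sigma.ext rfl (heq_of_eq (funext fun W =>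
      @h2 (OpenRing W.1) _ (OpenRing.algebraOver t W.1) W.2.fromSpec
        (OpenRing.fromSpec_comp t W.2) (OpenRing.fromSpec_comp t W.2)))
  refine small_of_injective (f := Quotient.lift (s := m.cutPairSetoid Z T) val hval) ?_
  intro x y hxy
  induction x using Quotient.ind with
  | _ a =>
    induction y using Quotient.ind with
    | _ b =>
      obtain ⟨t, M, hM⟩ := a
      obtain ⟨t', M', hM'⟩ := b
      obtain ⟨h1, h2⟩ := Sigma.mk.inj hxy
      obtain rfl : t = t' := h1
      have h3 := eq_of_heq h2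
      refine Quotient.sound ⟨rfl, fun R _ _ s ha hb => m.classAt_congr ?_ _⟩
      exact nonempty_iso_of_forall_affine (m.constFunctions hH0 t) M M' fun W hW =>
        m.nonempty_iso_of_classAt_openPoint hW (congrFun h3 ⟨W, hW⟩)

variable (hH0 : m.D.H0Const) (Z : UnitFieldCond m.D)

/-- The cut Picard functor, on objects. -/
def Cls (T : Scheme.{u}) : Type u :=
  @Shrink.{u} (Quotient (m.cutPairSetoid Z T)) (m.small_cutPair hH0 Z T)

namespace Cls

variable {m hH0 Z} {T T' T'' : Scheme.{u}}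

/-- The element of a pair. -/
def mk (a : CutPair m Z T) : m.Cls hH0 Z T :=
  letI := m.small_cutPair hH0 Z T
  equivShrink _ (Quotient.mk (m.cutPairSetoid Z T) a)

theorem exists_mk (x : m.Cls hH0 Z T) : ∃ a, mk a = x := by
  letI := m.small_cutPair hH0 Z T
  obtain ⟨q, rfl⟩ := (equivShrink (Quotient (m.cutPairSetoid Z T))).surjective x
  obtain ⟨a, rfl⟩ := Quotient.exists_rep q
  exact ⟨a, rfl⟩

theorem mk_eq_mk_iff {a b : CutPair m Z T} :
    (mk a : m.Cls hH0 Z T) = mk b ↔ CutPair.Rel a b := by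
  letI := m.small_cutPair hH0 Z T
  exact ((equivShrink (Quotient (m.cutPairSetoid Z T))).injective.eq_iff).trans Quotient.eq

/-- A representative. -/
def out (x : m.Cls hH0 Z T) : CutPair m Z T := (exists_mk x).choose

theorem mk_out (x : m.Cls hH0 Z T) : mk x.out = x := (exists_mk x).choose_spec

/-- Restriction. -/
def map (f : T' ⟶ T) (x : m.Cls hH0 Z T) : m.Cls hH0 Z T' := mk (x.out.pull f)

theorem map_mk (f : T' ⟶ T) (a : CutPair m Z T) :
    map f (mk a : m.Cls hH0 Z T) = mk (a.pull f) :=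
  mk_eq_mk_iff.mpr ((mk_eq_mk_iff.mp (mk_out (hH0 := hH0) (mk a))).pull f)

theorem map_id (x : m.Cls hH0 Z T) : map (𝟙 T) x = x := by
  obtain ⟨a, rfl⟩ := exists_mk x
  rw [map_mk]
  refine mk_eq_mk_iff.mpr ⟨Category.id_comp a.t, fun R _ _ s ha hb => ?_⟩
  rw [CutPair.classAt_pull _ a s ha]
  exact congrArg (m.classAt a.M) (Subtype.ext (Category.comp_id s))

theorem map_comp (f : T' ⟶ T) (g : T'' ⟶ T') (x : m.Cls hH0 Z T) :
    map (g ≫ f) x = map g (map f x) := by
  obtain ⟨a, rfl⟩ := exists_mk x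
  rw [map_mk, map_mk, map_mk]
  refine mk_eq_mk_iff.mpr ⟨Category.assoc g f a.t, fun R _ _ s ha hb => ?_⟩
  refine (CutPair.classAt_pull _ a s ha).trans (Eq.trans ?_
    ((CutPair.classAt_pull g (a.pull f) s hb).trans (CutPair.classAt_pull f a _ _)).symm)
  exact congrArg (m.classAt a.M) (Subtype.ext (Category.assoc s g f).symm)

end Cls

/-- The cut Picard functor. -/
def cutFunctor : Scheme.{u}ᵒᵖ ⥤ Type u where
  obj T := m.Cls hH0 Z T.unop
  map f := TypeCat.ofHom (Cls.map f.unop)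
  map_id T := TypeCat.homEquiv.injective (funext Cls.map_id)
  map_comp f g := TypeCat.homEquiv.injective (funext (Cls.map_comp f.unop g.unop))

theorem cutFunctor_map_mk {T T' : Scheme.{u}} (f : T' ⟶ T) (a : CutPair m Z T) :
    (m.cutFunctor hH0 Z).map f.op (Cls.mk a : m.Cls hH0 Z T) = (Cls.mk (a.pull f) : m.Cls hH0 Z T') :=
  Cls.map_mk f a

theorem cls_ext_of_cover {T : Scheme.{u}} {J : Type*} {X : J → Scheme.{u}}
    (f : ∀ j, X j ⟶ T) [∀ j, IsOpenImmersion (f j)]
    (hcov : ∀ z : T, ∃ j, z ∈ (f j).opensRange) {e e' : m.Cls hH0 Z T}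
    (h : ∀ j, Cls.map (f j) e = Cls.map (f j) e') : e = e' := by
  choose jz hjz using hcov
  obtain ⟨⟨t, G, hG⟩, rfl⟩ := Cls.exists_mk e
  obtain ⟨⟨t', G', hG'⟩, rfl⟩ := Cls.exists_mk e'
  have hr : ∀ j, CutPair.Rel (CutPair.pull (f j) ⟨t, G, hG⟩) (CutPair.pull (f j) ⟨t', G', hG'⟩) :=
    fun j => by
      refine (Cls.mk_eq_mk_iff (hH0 := hH0)).mp ?_
      rw [← Cls.map_mk, ← Cls.map_mk, h j]
  have htt : t = t' := by
    let 𝒰 : T.OpenCover := {
      I₀ := T
      X := fun z => X (jz z)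
      f := fun z => f (jz z)
      mem₀ := by
        rw [Scheme.presieve₀_mem_precoverage_iff]
        exact ⟨fun z => ⟨z, hjz z⟩, fun z => inferInstance⟩ }
    exact Scheme.Cover.hom_ext 𝒰 _ _ fun z => (hr (jz z)).1
  subst htt
  refine Cls.mk_eq_mk_iff.mpr ⟨rfl, fun R _ _ s ha hb => ?_⟩
  refine m.classAt_eq_of_classAt_cover hH0 (M := G) (M' := G') (fun z => (f (jz z)).opensRange)
    (fun z => ⟨z, hjz z⟩) (fun z R' _ _ s' hs' => ?_) R ⟨s, ha⟩
  let l := IsOpenImmersion.lift (f (jz z)) s'.1 hs'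
  have hl : l ≫ f (jz z) = s'.1 := IsOpenImmersion.lift_fac _ _ _
  have hl' : l ≫ f (jz z) ≫ t = structMap k R' := by
    rw [← Category.assoc, hl]
    exact s'.2
  refine Eq.trans ?_ (((CutPair.classAt_pull (f (jz z)) ⟨t, G, hG⟩ l hl').symm.trans
    ((hr (jz z)).2 R' l hl' hl')).trans
      ((CutPair.classAt_pull (f (jz z)) ⟨t, G', hG'⟩ l hl').trans ?_))
  · exact congrArg (m.classAt G) (Subtype.ext hl.symm)
  · exact congrArg (m.classAt G') (Subtype.ext hl)

theorem isSheafFor_cutFunctor {T : Scheme.{u}} {J : Type (u + 1)} (X : J → Scheme.{u})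
    (f : ∀ j, X j ⟶ T) [∀ j, IsOpenImmersion (f j)]
    (hcov : ∀ z : T, ∃ j, z ∈ (f j).opensRange) (x : ∀ j, m.Cls hH0 Z (X j))
    (hx : ∀ (i j : J) (W : Scheme.{u}) (a : W ⟶ X i) (b : W ⟶ X j), a ≫ f i = b ≫ f j →
      Cls.map a (x i) = Cls.map b (x j)) :
    ∃! e : m.Cls hH0 Z T, ∀ j, Cls.map (f j) e = x j := by
  choose jz hjz using hcov
  let p : ∀ j, CutPair m Z (X j) := fun j => (x j).out
  have hp : ∀ j, Cls.mk (p j) = x j := fun j => Cls.mk_out (x j)
  have hrel : ∀ (i j : J) (W : Scheme.{u}) (a : W ⟶ X i) (b : W ⟶ X j), a ≫ f i = b ≫ f j →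
      CutPair.Rel ((p i).pull a) ((p j).pull b) := fun i j W a b hab => by
    refine (Cls.mk_eq_mk_iff (hH0 := hH0)).mp ?_
    rw [← Cls.map_mk, ← Cls.map_mk, hp, hp]
    exact hx i j W a b hab
  let 𝒰 : T.OpenCover := {
    I₀ := T
    X := fun z => X (jz z)
    f := fun z => f (jz z)
    mem₀ := by
      rw [Scheme.presieve₀_mem_precoverage_iff]
      exact ⟨fun z => ⟨z, hjz z⟩, fun z => inferInstance⟩ }
  let t : T ⟶ Spec (CommRingCat.of k) := 𝒰.glueMorphisms (fun z => (p (jz z)).t) fun z w =>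
    (hrel _ _ _ (pullback.fst (f (jz z)) (f (jz w))) (pullback.snd _ _) pullback.condition).1
  have ht₀ : ∀ z, f (jz z) ≫ t = (p (jz z)).t := fun z => 𝒰.ι_glueMorphisms _ _ z
  let U : T → T.Opens := fun z => (f (jz z)).opensRange
  have hsub : ∀ z, Set.range (U z).ι ⊆ Set.range (f (jz z)) := fun z => by
    rw [Scheme.Opens.range_ι]
    exact Set.Subset.rfl
  let g : ∀ z, SchemeHomOver ((U z).ι ≫ t) (p (jz z)).t := fun z =>
    ⟨IsOpenImmersion.lift (f (jz z)) (U z).ι (hsub z), by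
      rw [← ht₀ z, IsOpenImmersion.lift_fac_assoc]⟩
  have hgf : ∀ z, (g z).1 ≫ f (jz z) = (U z).ι := fun z =>
    IsOpenImmersion.lift_fac (f (jz z)) (U z).ι (hsub z)
  have hclass : ∀ (i j : J) (R : Type u) [CommRing R] [Algebra k R]
      (a : SchemeHomOver (structMap k R) (p i).t) (b : SchemeHomOver (structMap k R) (p j).t),
      a.1 ≫ f i = b.1 ≫ f j → m.classAt (p i).M a = m.classAt (p j).M b := by
    intro i j R _ _ a b hab
    have h := (hrel i j _ a.1 b.1 hab).2 R (𝟙 _) ((Category.id_comp _).trans a.2)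
      ((Category.id_comp _).trans b.2)
    refine Eq.trans ?_ (((CutPair.classAt_pull a.1 (p i) _ _).symm.trans h).trans
      ((CutPair.classAt_pull b.1 (p j) _ _).trans ?_))
    · exact congrArg (m.classAt (p i).M) (Subtype.ext (Category.id_comp _).symm)
    · exact congrArg (m.classAt (p j).M) (Subtype.ext (Category.id_comp _))
  obtain ⟨G, hG⟩ := exists_glue_rigidified (c := c) (ε := ε) U
    (fun z => (p (jz z)).M.pullbackAlong (g z)) (m.constFunctions hH0 t) (fun z => ⟨z, hjz z⟩)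
    fun z w V hz hw hV => by
      letI := OpenRing.algebraOver t V
      refine m.nonempty_iso_of_classAt_ofOpenSpec hV ?_
      rw [m.classAt_pullbackAlong, m.classAt_pullbackAlong, m.classAt_pullbackAlong,
        m.classAt_pullbackAlong]
      refine hclass _ _ _ _ _ ?_
      show ((hV.isoSpec.inv ≫ T.homOfLE hz) ≫ (g z).1) ≫ f _ =
        ((hV.isoSpec.inv ≫ T.homOfLE hw) ≫ (g w).1) ≫ f _
      rw [Category.assoc, Category.assoc _ (g w).1, hgf, hgf, Category.assoc, Category.assoc,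
        T.homOfLE_ι, T.homOfLE_ι]
  have hGclass : ∀ (z : T) (R : Type u) [CommRing R] [Algebra k R]
      (s : SchemeHomOver (structMap k R) ((U z).ι ≫ t)),
      m.classAt G (postComp (inclOpen t (U z)) s) =
        m.classAt (p (jz z)).M (postComp (g z) s) := by
    intro z R _ _ s
    rw [← m.classAt_pullbackAlong, m.classAt_congr (hG z), m.classAt_pullbackAlong]
  have hmem : (m.cut Z).P t G := by
    intro K _ _ s
    obtain ⟨z, hz⟩ : ∃ z, Set.range s.1 ⊆ Set.range (U z).ι := by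
      refine ⟨s.1 default, ?_⟩
      rintro _ ⟨y, rfl⟩
      rw [Scheme.Opens.range_ι, Subsingleton.elim y default]
      exact hjz _
    let s' : SchemeHomOver (structMap k K) ((U z).ι ≫ t) := ⟨IsOpenImmersion.lift (U z).ι s.1 hz, by
      rw [IsOpenImmersion.lift_fac_assoc]
      exact s.2⟩
    have hs : postComp (inclOpen t (U z)) s' = s := Subtype.ext (IsOpenImmersion.lift_fac _ _ _)
    rw [← hs, hGclass]
    exact (p (jz z)).mem K _
  have hfacz : ∀ z, Cls.map (f (jz z)) (Cls.mk ⟨t, G, hmem⟩ : m.Cls hH0 Z T) = x (jz z) := by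
    intro z
    rw [Cls.map_mk, ← hp (jz z)]
    refine Cls.mk_eq_mk_iff.mpr ⟨ht₀ z, fun R _ _ s ha hb => ?_⟩
    have hz : Set.range (s ≫ f (jz z)) ⊆ Set.range (U z).ι := by
      rintro _ ⟨y, rfl⟩
      rw [Scheme.Opens.range_ι]
      exact ⟨s y, rfl⟩
    let s' : SchemeHomOver (structMap k R) ((U z).ι ≫ t) :=
      ⟨IsOpenImmersion.lift (U z).ι (s ≫ f (jz z)) hz, by
        rw [IsOpenImmersion.lift_fac_assoc, Category.assoc]
        exact ha⟩
    refine (CutPair.classAt_pull _ _ s ha).trans ((congrArg (m.classAt G)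
      (a₂ := postComp (inclOpen t (U z)) s')
      (Subtype.ext (IsOpenImmersion.lift_fac (U z).ι (s ≫ f (jz z)) hz).symm)).trans ?_)
    refine (hGclass z R s').trans (congrArg (m.classAt (p (jz z)).M) (Subtype.ext ?_))
    refine (cancel_mono (f (jz z))).mp ?_
    show (IsOpenImmersion.lift (U z).ι (s ≫ f (jz z)) hz ≫ (g z).1) ≫ f (jz z) = s ≫ f (jz z)
    rw [Category.assoc, hgf, IsOpenImmersion.lift_fac]
  refine ⟨Cls.mk ⟨t, G, hmem⟩, fun j => ?_, fun e he => ?_⟩
  · refine m.cls_ext_of_cover hH0 Z (fun z : T => pullback.fst (f j) (f (jz z))) (fun y => ?_) fun z => ?_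
    · refine ⟨f j y, ?_⟩
      show y ∈ Set.range (pullback.fst (f j) (f (jz (f j y))))
      obtain ⟨y', hy'⟩ := hjz (f j y)
      obtain ⟨w, hw, -⟩ := Scheme.Pullback.exists_preimage_pullback y y' hy'.symm
      exact ⟨w, hw⟩
    · rw [← Cls.map_comp, pullback.condition, Cls.map_comp, hfacz z]
      exact (hx j (jz z) _ _ _ pullback.condition).symm
  · exact m.cls_ext_of_cover hH0 Z (fun z : T => f (jz z)) (fun z => ⟨z, hjz z⟩) fun z =>
      (he (jz z)).trans (hfacz z).symm

theorem isSheaf_cutFunctor : Presheaf.IsSheaf Scheme.zariskiTopology (m.cutFunctor hH0 Z) := by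
  rw [isSheaf_iff_isSheaf_of_type, Precoverage.isSheaf_toGrothendieck_iff_of_isStableUnderBaseChange]
  intro T S hS
  obtain ⟨(𝓤 : Scheme.OpenCover.{u + 1} T), rfl⟩ := Scheme.exists_cover_of_mem_pretopology hS
  rw [Presieve.isSheafFor_arrows_iff]
  intro x hx
  have hopen : ∀ j, IsOpenImmersion (𝓤.f j) := fun j => inferInstance
  exact @isSheafFor_cutFunctor k _ C c ε m hH0 Z T 𝓤.I₀ 𝓤.X 𝓤.f hopen
    (fun z => let ⟨j, y, hy⟩ := 𝓤.exists_eq z; ⟨j, ⟨y, hy⟩⟩) x hx

end CurveModel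

end Fermat.Agent.Jac
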