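import Fermat.Agent.Jac.Rep.Functor

/-!
# The locus of a base where the fibres of a bundle satisfy a condition
-/

set_option autoImplicit false
set_option linter.style.haveILetI false

noncomputable section

universe u

open CategoryTheory CategoryTheory.Limits AlgebraicGeometry TopologicalSpace
  NeronModelInfra AlgebraicGeometry.RelPicard

namespace Fermat.Agent.Jac

variable {k : Type u} [Field k]

namespace FieldCond

variable {D : CurveData.{u} k} (G : FieldCond D) {R : Type u} [CommRing R] [Algebra k R]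

/-- The primes where a class satisfies the condition. -/
def locus (x : LinePic D R) : Set (PrimeSpectrum R) :=
  {p | G.mem p.asIdeal.ResidueField
    (LinePic.map (IsScalarTower.toAlgHom k R p.asIdeal.ResidueField) x)}

/-- The condition at a field point only depends on its prime. -/
theorem mem_map_iff (x : LinePic D R) {K : Type u} [Field K] [Algebra k K] (φ : R →ₐ[k] K)
    (p : PrimeSpectrum R) (hp : p.asIdeal = RingHom.ker φ) :
    G.mem K (LinePic.map φ x) ↔ p ∈ G.locus x := by
  have h2 : p.asIdeal.primeCompl ≤ (IsUnit.submonoid K).comap φ := fun r hr => by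
    refine isUnit_iff_ne_zero.mpr fun h0 => hr ?_
    show r ∈ p.asIdeal
    rw [hp]
    exact h0
  rw [← Ideal.ResidueField.liftₐ_comp_toAlgHom p.asIdeal φ hp.le h2, ← LinePic.map_map,
    G.invariant]
  rfl

end FieldCond

theorem exists_specRange {R : Type u} [CommRing R] [Algebra k R] (p : PrimeSpectrum R) :
    ∀ y, (specHomOver (IsScalarTower.toAlgHom k R p.asIdeal.ResidueField)).1 y = p := fun y => by
  refine PrimeSpectrum.ext ?_
  show Ideal.comap _ y.asIdeal = _
  rw [(Ideal.eq_bot_or_top y.asIdeal).resolve_right y.2.ne_top]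
  exact Ideal.ker_algebraMap_residueField _

variable {C : Scheme.{u}} {c : C ⟶ Spec (CommRingCat.of k)}
  {ε : SchemeHomOver (𝟙 (Spec (CommRingCat.of k))) c}

namespace CurveModel

variable (m : CurveModel c ε) (G : FieldCond m.D) {T : Scheme.{u}}
  {t : T ⟶ Spec (CommRingCat.of k)} (M : RigidifiedLineBundle c ε t)

/-- The points at which the fibre satisfies the condition. -/
def goodSet : Set T :=
  {z | ∃ (K : Type u) (_ : Field K) (_ : Algebra k K) (s : SchemeHomOver (structMap k K) t),
    (∀ y, s.1 y = z) ∧ G.mem K (m.classAt M s)}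

theorem classAt_mem_iff_locus {W : T.Opens} (hW : IsAffineOpen W) {K : Type u} [Field K]
    [Algebra k K] (s : SchemeHomOver (structMap k K) t) (p : PrimeSpectrum Γ(T, W))
    (hp : ∀ y, s.1 y = hW.fromSpec p) :
    letI := OpenRing.algebraOver t W
    G.mem K (m.classAt M s) ↔
      p ∈ G.locus (R := OpenRing W) (m.classAt M (openPoint t hW)) := by
  letI := OpenRing.algebraOver t W
  obtain ⟨φ, hφ⟩ := exists_specHomOver_openPoint hW s (by
    rintro _ ⟨y, rfl⟩
    rw [hp y]
    exact hW.range_fromSpec.le ⟨p, rfl⟩)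
  rw [← hφ, ← m.map_classAt]
  refine G.mem_map_iff _ φ p ?_
  let y : Spec (CommRingCat.of K) := (⊥ : PrimeSpectrum K)
  have h : (specHomOver φ).1 y = p := by
    apply hW.fromSpec.isOpenEmbedding.injective
    rw [← hp y, ← hφ]
    rfl
  rw [← h]
  show Ideal.comap _ (⊥ : PrimeSpectrum K).asIdeal = _
  rfl

theorem classAt_mem_iff {K : Type u} [Field K] [Algebra k K]
    (s : SchemeHomOver (structMap k K) t) (z : T) (hz : ∀ y, s.1 y = z) :
    G.mem K (m.classAt M s) ↔ z ∈ m.goodSet G M := by
  refine ⟨fun h => ⟨K, inferInstance, inferInstance, s, hz, h⟩, ?_⟩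
  rintro ⟨K', _, _, s', hz', h'⟩
  obtain ⟨W, hW, hzW, -⟩ := exists_affine_le (U := ⊤) (x := z) trivial
  obtain ⟨p, rfl⟩ : z ∈ Set.range hW.fromSpec := hW.range_fromSpec.ge hzW
  exact (m.classAt_mem_iff_locus G M hW s p hz).mpr
    ((m.classAt_mem_iff_locus G M hW s' p hz').mp h')

theorem exists_field_point (z : T) :
    ∃ (K : Type u) (_ : Field K) (_ : Algebra k K) (s : SchemeHomOver (structMap k K) t),
      ∀ y, s.1 y = z := by
  obtain ⟨W, hW, hzW, -⟩ := exists_affine_le (U := ⊤) (x := z) trivial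
  obtain ⟨p, rfl⟩ : z ∈ Set.range hW.fromSpec := hW.range_fromSpec.ge hzW
  letI := OpenRing.algebraOver t W
  let q : PrimeSpectrum (OpenRing W) := p
  refine ⟨q.asIdeal.ResidueField, inferInstance, inferInstance,
    postComp (openPoint t hW) (specHomOver (IsScalarTower.toAlgHom k _ _)), fun y => ?_⟩
  show hW.fromSpec _ = hW.fromSpec p
  exact congrArg hW.fromSpec (exists_specRange q y)

theorem isOpen_goodSet
    (hG : ∀ (R : Type u) [CommRing R] [Algebra k R] (x : LinePic m.D R), IsOpen (G.locus x)) :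
    IsOpen (m.goodSet G M) := by
  refine isOpen_iff_forall_mem_open.mpr fun z hz => ?_
  obtain ⟨W, hW, hzW, -⟩ := exists_affine_le (U := ⊤) (x := z) trivial
  letI := OpenRing.algebraOver t W
  let L : Set (Spec Γ(T, W)) := G.locus (R := OpenRing W) (m.classAt M (openPoint t hW))
  have key : ∀ p : Spec Γ(T, W), hW.fromSpec p ∈ m.goodSet G M ↔ p ∈ L := fun p => by
    obtain ⟨K, _, _, s, hs⟩ := exists_field_point (t := t) (hW.fromSpec p)
    exact (m.classAt_mem_iff G M s _ hs).symm.trans (m.classAt_mem_iff_locus G M hW s p hs)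
  refine ⟨hW.fromSpec '' L, ?_, hW.fromSpec.isOpenEmbedding.isOpenMap _ (hG _ _), ?_⟩
  · rintro _ ⟨p, hp, rfl⟩
    exact (key p).mpr hp
  · obtain ⟨p, rfl⟩ : z ∈ Set.range hW.fromSpec := hW.range_fromSpec.ge hzW
    exact ⟨p, (key p).mp hz, rfl⟩

end CurveModel

end Fermat.Agent.Jac
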