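import Fermat.Agent.Jac.Rep.Points
import Fermat.Agent.Jac.Rep.DegPoints

/-!
# Subtraction on a scheme representing the degree zero classes
-/

set_option autoImplicit false
set_option linter.unusedSectionVars false

noncomputable section

universe u

open CategoryTheory CategoryTheory.Limits AlgebraicGeometry NeronModelInfra AlgebraicGeometry.RelPicard
  GoodReductionJacobian

namespace Fermat.Agent.Jac

variable {k : Type u} [Field k]

/-- A field point of a scheme locally of finite type factors through an affine point of finite type. -/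
theorem exists_finiteType_point {T : Scheme.{u}} {t : T ⟶ Spec (CommRingCat.of k)}
    [LocallyOfFiniteType t] {K : Type u} [Field K] [Algebra k K]
    (s : SchemeHomOver (structMap k K) t) :
    ∃ (S : Type u) (_ : CommRing S) (_ : Algebra k S), Algebra.FiniteType k S ∧
      ∃ (s₀ : SchemeHomOver (structMap k S) t) (ψ : S →ₐ[k] K),
        s = postComp s₀ (specHomOver ψ) := by
  obtain ⟨_, ⟨W, hW, rfl⟩, hpt, -⟩ :=
    T.isBasis_affineOpens.exists_subset_of_mem_open
      (Set.mem_univ (s.1.base (IsLocalRing.closedPoint K))) isOpen_univ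
  let g : Spec Γ(T, W) ⟶ T := hW.fromSpec
  let a : Algebra k Γ(T, W) := (Spec.preimage (g ≫ t)).hom.toAlgebra
  have hg : g ≫ t = structMap k Γ(T, W) := (Spec.map_preimage _).symm
  have hft : LocallyOfFiniteType (g ≫ t) := inferInstance
  have hfin : Algebra.FiniteType k Γ(T, W) := by
    rw [hg] at hft
    exact (HasRingHomProperty.Spec_iff (P := @LocallyOfFiniteType)).mp hft
  have hr : Set.range s.1.base ⊆ Set.range g.base := by
    rintro _ ⟨z, rfl⟩
    rw [show z = IsLocalRing.closedPoint K from Subsingleton.elim _ _, IsAffineOpen.range_fromSpec]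
    exact hpt
  let b : Spec (CommRingCat.of K) ⟶ Spec Γ(T, W) := IsOpenImmersion.lift g s.1 hr
  have hb : b ≫ g = s.1 := IsOpenImmersion.lift_fac g s.1 hr
  obtain ⟨ψ, hψ⟩ := exists_specHomOver_eq
    (⟨b, by rw [← hg, ← Category.assoc, hb]; exact s.2⟩ :
      SchemeHomOver (structMap k K) (structMap k Γ(T, W)))
  refine ⟨Γ(T, W), inferInstance, a, hfin, ⟨g, hg⟩, ψ, Subtype.ext ?_⟩
  show s.1 = (specHomOver ψ).1 ≫ g
  rw [← hψ]
  exact hb.symm

namespace CurveModel

variable [IsAlgClosed k] {C : Scheme.{u}} {c : C ⟶ Spec (CommRingCat.of k)}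
  {ε : SchemeHomOver (𝟙 (Spec (CommRingCat.of k))) c} (m : CurveModel c ε)
  {J : RelativePic0Designation k c}
  (h : RepresentsRelSubPic c ε (m.cut (degZero m.D)) J) [LocallyOfFiniteType J.toBase]

variable {T : Scheme.{u}} {t : T ⟶ Spec (CommRingCat.of k)}

/-- Quotients of classes of points are fibrewise of degree zero. -/
theorem onFibres_pointClass_div [LocallyOfFiniteType t] (a b : SchemeHomOver t J.toBase)
    {R : Type u} [CommRing R] [Algebra k R] (s : SchemeHomOver (structMap k R) t) :
    (degZero m.D).OnFibres
      (m.pointClass h (postComp a s) * (m.pointClass h (postComp b s))⁻¹) := by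
  intro K _ _ φ
  obtain ⟨S, _, _, hS, s₀, ψ, e⟩ := exists_finiteType_point (postComp s (specHomOver φ))
  have key : ∀ c : SchemeHomOver t J.toBase, LinePic.map φ (m.pointClass h (postComp c s)) =
      LinePic.map ψ (m.pointClass h (postComp c s₀)) := fun c => by
    rw [m.map_pointClass, m.map_pointClass, postComp_assoc, postComp_assoc, e]
  rw [map_mul, map_inv, key, key, ← map_inv, ← map_mul]
  exact onFibres_degZero_mul_inv (m.pointClass_onFibres h _) (m.pointClass_onFibres h _) K ψ

/-- The difference of two morphisms to the representing scheme. -/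
theorem exists_div [LocallyOfFiniteType t] (a b : SchemeHomOver t J.toBase) :
    ∃ g : SchemeHomOver t J.toBase,
      ∀ (R : Type u) [CommRing R] [Algebra k R] (s : SchemeHomOver (structMap k R) t),
        m.pointClass h (postComp g s) =
          m.pointClass h (postComp a s) * (m.pointClass h (postComp b s))⁻¹ :=
  m.exists_hom_pointClass h
    (fun R _ _ s => m.pointClass h (postComp a s) * (m.pointClass h (postComp b s))⁻¹)
    (fun R _ _ s => LinePic.mem_rigidGroup.mp ((LinePic.rigidGroup m.D R).mul_mem
      (LinePic.mem_rigidGroup.mpr (m.pointClass_mem_rigid h _))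
      ((LinePic.rigidGroup m.D R).inv_mem (LinePic.mem_rigidGroup.mpr (m.pointClass_mem_rigid h _)))))
    (fun R _ _ s => m.onFibres_pointClass_div h a b s)
    (fun R R' _ _ _ _ φ s => by
      rw [map_mul, map_inv, m.map_pointClass, m.map_pointClass, postComp_assoc, postComp_assoc])

/-- Subtraction. -/
theorem exists_sub : ∃ σ : SchemeHomOver (pullback.fst J.toBase J.toBase ≫ J.toBase) J.toBase,
    ∀ (R : Type u) [CommRing R] [Algebra k R]
      (s : SchemeHomOver (structMap k R) (pullback.fst J.toBase J.toBase ≫ J.toBase)),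
      m.pointClass h (postComp σ s) = m.pointClass h (postComp ⟨pullback.fst _ _, rfl⟩ s) *
        (m.pointClass h (postComp ⟨pullback.snd _ _, pullback.condition.symm⟩ s))⁻¹ :=
  m.exists_div h _ _

end CurveModel

end Fermat.Agent.Jac
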