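import Fermat.Agent.Jac.Rep.GoodOpen
import Fermat.Agent.Jac.Rep.AffinePoints

/-!
# The charts of a chart family are open subfunctors of the cut Picard functor
-/

set_option autoImplicit false
set_option linter.style.haveILetI false

noncomputable section

universe u

open CategoryTheory CategoryTheory.Limits AlgebraicGeometry Opposite TopologicalSpace
  NeronModelInfra AlgebraicGeometry.RelPicard

namespace Fermat.Agent.Jac.CurveModel

variable {k : Type u} [Field k] {C : Scheme.{u}} {c : C ⟶ Spec (CommRingCat.of k)}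
  {ε : SchemeHomOver (𝟙 (Spec (CommRingCat.of k))) c}
variable (m : CurveModel c ε) (hH0 : m.D.H0Const) {Z : UnitFieldCond m.D}
  (F : ChartFamily m.D Z) (i : F.ι)

/-- The universal bundle of a chart. -/
def chartBundle : RigidifiedLineBundle c ε (structMap k (F.U i)) :=
  (m.exists_classAt_eq (F.univ_rigid i)).choose

theorem classAt_chartBundle {R : Type u} [CommRing R] [Algebra k R] (φ : F.U i →ₐ[k] R) :
    m.classAt (m.chartBundle F i) (specHomOver φ) = LinePic.map φ (F.univ i) := by
  rw [← (m.exists_classAt_eq (F.univ_rigid i)).choose_spec, m.map_classAt]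
  exact congrArg (m.classAt _) (Subtype.ext (Category.comp_id _).symm)

theorem chartBundle_mem : (m.cut Z).P (structMap k (F.U i)) (m.chartBundle F i) := by
  intro K _ _ s
  obtain ⟨φ, rfl⟩ := exists_specHomOver_eq s
  rw [m.classAt_chartBundle]
  exact F.univ_mem i K φ

/-- The element of a chart. -/
def chartPair : CutPair m Z (Spec (CommRingCat.of (F.U i))) :=
  ⟨structMap k (F.U i), m.chartBundle F i, m.chartBundle_mem F i⟩

/-- The map of a chart to the functor. -/
def chartHom : yoneda.obj (Spec (CommRingCat.of (F.U i))) ⟶ m.cutFunctor hH0 Z :=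
  yonedaEquiv.symm (Cls.mk (m.chartPair F i) : m.Cls hH0 Z _)

theorem chartHom_app {W : Scheme.{u}} (a : W ⟶ Spec (CommRingCat.of (F.U i))) :
    (m.chartHom hH0 F i).app (op W) a = Cls.map a (Cls.mk (m.chartPair F i) : m.Cls hH0 Z _) := rfl

theorem chart_injective {W : Scheme.{u}} {a a' : W ⟶ Spec (CommRingCat.of (F.U i))}
    (h : Cls.map a (Cls.mk (m.chartPair F i) : m.Cls hH0 Z _) =
      Cls.map a' (Cls.mk (m.chartPair F i))) : a = a' := by
  rw [Cls.map_mk, Cls.map_mk, Cls.mk_eq_mk_iff] at h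
  obtain ⟨h1, h2⟩ := h
  let t := a ≫ structMap k (F.U i)
  have ht : a' ≫ structMap k (F.U i) = t := h1.symm
  refine congrArg Subtype.val (hom_ext_of_affine_points (t := t) (y := structMap k (F.U i))
    (a := ⟨a, rfl⟩) (b := ⟨a', ht⟩) fun R _ _ s => ?_)
  obtain ⟨φ, hφ⟩ := exists_specHomOver_eq (postComp (⟨a, rfl⟩ : SchemeHomOver t _) s)
  obtain ⟨φ', hφ'⟩ := exists_specHomOver_eq (postComp (⟨a', ht⟩ : SchemeHomOver t _) s)
  have hb : s.1 ≫ (CutPair.pull a' (m.chartPair F i)).t = structMap k R := by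
    show s.1 ≫ a' ≫ structMap k (F.U i) = _
    rw [ht]
    exact s.2
  have hs := ((CutPair.classAt_pull a (m.chartPair F i) s.1 s.2).symm.trans
    (h2 R s.1 s.2 hb)).trans (CutPair.classAt_pull a' (m.chartPair F i) s.1 hb)
  have e1 : LinePic.map φ (F.univ i) = LinePic.map φ' (F.univ i) := by
    rw [← m.classAt_chartBundle, ← m.classAt_chartBundle, ← hφ, ← hφ']
    exact hs
  have hr : LinePic.map φ (F.univ i) ∈ LinePic.rigid m.D R := by
    rw [← m.classAt_chartBundle]
    exact m.classAt_mem_rigid _ _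
  obtain ⟨ψ, -, huniq⟩ := F.classify i R (LinePic.map φ (F.univ i)) hr ((F.univ_good i).map φ)
  rw [hφ, hφ', huniq φ rfl, huniq φ' e1.symm]

theorem exists_chart_pullback {T : Scheme.{u}} (p : CutPair m Z T) :
    ∃ (V : T.Opens) (g : V.toScheme ⟶ Spec (CommRingCat.of (F.U i))),
      (V : Set T) = m.goodSet (F.good i) p.M ∧
      Cls.map g (Cls.mk (m.chartPair F i) : m.Cls hH0 Z _) = Cls.map V.ι (Cls.mk p) ∧
      ∀ (W : Scheme.{u}) (a : W ⟶ Spec (CommRingCat.of (F.U i))) (b : W ⟶ T),
        Cls.map a (Cls.mk (m.chartPair F i) : m.Cls hH0 Z _) = Cls.map b (Cls.mk p) →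
          Set.range b ⊆ V := by
  let V : T.Opens := ⟨m.goodSet (F.good i) p.M, m.isOpen_goodSet _ _ (F.isOpen_good i)⟩
  let tV := V.ι ≫ p.t
  let cl : ∀ (R : Type u) [CommRing R] [Algebra k R], SchemeHomOver (structMap k R) tV →
      LinePic m.D R := fun R _ _ s => m.classAt p.M (postComp (inclOpen p.t V) s)
  have hgood : ∀ (R : Type u) [CommRing R] [Algebra k R] (s : SchemeHomOver (structMap k R) tV),
      (F.good i).OnFibres (cl R s) := by
    intro R _ _ s K _ _ φ
    rw [m.map_classAt]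
    let s' := postComp (postComp (inclOpen p.t V) s) (specHomOver φ)
    let y₀ : Spec (CommRingCat.of K) := (⊥ : PrimeSpectrum K)
    refine (m.classAt_mem_iff (F.good i) p.M s' (s'.1 y₀) fun y => ?_).mpr ?_
    · exact congrArg s'.1 (Subsingleton.elim (α := PrimeSpectrum K) y y₀)
    · exact (s.1 ((specHomOver φ).1 y₀)).2
  have hcls : ∀ (R : Type u) [CommRing R] [Algebra k R] (s : SchemeHomOver (structMap k R) tV),
      ∃! φ : F.U i →ₐ[k] R, LinePic.map φ (F.univ i) = cl R s := fun R _ _ s =>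
    F.classify i R _ (m.classAt_mem_rigid _ _) (hgood R s)
  let P : PointFamily tV (structMap k (F.U i)) :=
    { app := fun R _ _ s => specHomOver (hcls R s).exists.choose
      natural := fun R R' _ _ _ _ φ s => by
        have h1 : LinePic.map (φ.comp (hcls R s).exists.choose) (F.univ i) =
            cl R' (postComp s (specHomOver φ)) := by
          rw [← LinePic.map_map, (hcls R s).exists.choose_spec, m.map_classAt]
          exact congrArg (m.classAt p.M) (Subtype.ext (Category.assoc _ _ _).symm)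
        rw [(hcls R' (postComp s (specHomOver φ))).unique
          (hcls R' (postComp s (specHomOver φ))).exists.choose_spec h1]
        refine Subtype.ext ?_
        show Spec.map _ = Spec.map _ ≫ Spec.map _
        rw [← Spec.map_comp]
        rfl }
  obtain ⟨g, hg⟩ := P.exists_hom
  refine ⟨V, g.1, rfl, ?_, fun W a b hab => ?_⟩
  · rw [Cls.map_mk, Cls.map_mk]
    refine Cls.mk_eq_mk_iff.mpr ⟨g.2, fun R _ _ s ha hb => ?_⟩
    refine (CutPair.classAt_pull g.1 (m.chartPair F i) s ha).trans
      (Eq.trans ?_ (CutPair.classAt_pull V.ι p s hb).symm)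
    refine (congrArg (m.classAt (m.chartBundle F i)) (a₂ := P.app R ⟨s, hb⟩) ?_).trans ?_
    · exact Subtype.ext (congrArg Subtype.val (hg R ⟨s, hb⟩))
    · exact (m.classAt_chartBundle F i _).trans (hcls R ⟨s, hb⟩).exists.choose_spec
  · rw [Cls.map_mk, Cls.map_mk, Cls.mk_eq_mk_iff] at hab
    obtain ⟨h1, h2⟩ := hab
    rintro _ ⟨w, rfl⟩
    obtain ⟨K, _, _, s, hs⟩ := exists_field_point (t := (CutPair.pull b p).t) w
    have ha : s.1 ≫ (CutPair.pull a (m.chartPair F i)).t = structMap k K := by rw [h1]; exact s.2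
    have he := ((CutPair.classAt_pull a (m.chartPair F i) s.1 ha).symm.trans
      (h2 K s.1 ha s.2)).trans (CutPair.classAt_pull b p s.1 s.2)
    obtain ⟨φ, hφ⟩ := exists_specHomOver_eq
      (⟨s.1 ≫ a, (Category.assoc _ _ _).trans ha⟩ : SchemeHomOver (structMap k K) (structMap k (F.U i)))
    refine (m.classAt_mem_iff (F.good i) p.M
      ⟨s.1 ≫ b, (Category.assoc _ _ _).trans s.2⟩ (b w) fun y => congrArg b (hs y)).mp ?_
    rw [← he]
    show (F.good i).mem K (m.classAt (m.chartBundle F i) ⟨s.1 ≫ a, _⟩)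
    rw [hφ, m.classAt_chartBundle]
    exact F.univ_good i K φ

theorem isOpenImmersion_chartHom : IsOpenImmersion.presheaf (m.chartHom hH0 F i) := by
  refine MorphismProperty.relative.of_exists fun T g => ?_
  let x : m.Cls hH0 Z T := yonedaEquiv g
  obtain ⟨V, gV, hV, hw, hrange⟩ := m.exists_chart_pullback hH0 F i x.out
  rw [Cls.mk_out] at hw hrange
  have hgx : ∀ {W : Scheme.{u}} (b : W ⟶ T), g.app (op W) b = Cls.map b x := fun {W} b => by
    obtain ⟨y, rfl⟩ := (yonedaEquiv (X := T) (F := m.cutFunctor hH0 Z)).symm.surjective g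
    show _ = Cls.map b (yonedaEquiv (yonedaEquiv.symm y))
    rw [Equiv.apply_symm_apply]
    rfl
  refine ⟨V, yoneda.map gV, V.ι, IsPullback.of_forall_isPullback_app fun W => ?_, inferInstance⟩
  refine (Types.isPullback_iff _ _ _ _).mpr ⟨?_, fun x₁ y₁ h => ?_, fun a b hab => ?_⟩
  · refine TypeCat.homEquiv.injective (funext fun v => ?_)
    show Cls.map (v ≫ gV) _ = g.app W (v ≫ V.ι)
    rw [hgx, Cls.map_comp, Cls.map_comp, hw]
  · exact (cancel_mono V.ι).mp h.2
  · revert a b hab
    intro (a : W.unop ⟶ Spec (CommRingCat.of (F.U i))) (b : W.unop ⟶ T) hab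
    have hab' : Cls.map a (Cls.mk (m.chartPair F i) : m.Cls hH0 Z _) = Cls.map b x :=
      ((m.chartHom_app hH0 F i a).symm.trans hab).trans (hgx b)
    have hb : Set.range b ⊆ Set.range V.ι := by
      rw [Scheme.Opens.range_ι]
      exact hrange _ a b hab'
    refine ⟨IsOpenImmersion.lift V.ι b hb, ?_, IsOpenImmersion.lift_fac V.ι b hb⟩
    refine m.chart_injective hH0 F i ?_
    show Cls.map (IsOpenImmersion.lift V.ι b hb ≫ gV) _ = _
    rw [Cls.map_comp, hw, ← Cls.map_comp, IsOpenImmersion.lift_fac]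
    exact hab'.symm

theorem isLocallySurjective_chartHom :
    Presheaf.IsLocallySurjective Scheme.zariskiTopology (Sigma.desc (m.chartHom hH0 F)) := by
  refine ⟨fun {T} x => ?_⟩
  let p : CutPair m Z T := Cls.out (hH0 := hH0) x
  have hcov : ∀ z : T, ∃ j, z ∈ m.goodSet (F.good j) p.M := fun z => by
    obtain ⟨K, _, _, s, hs⟩ := exists_field_point (t := p.t) z
    obtain ⟨j, hj⟩ := F.covers K _ (p.mem K s)
    exact ⟨j, (m.classAt_mem_iff (F.good j) p.M s z hs).mp hj⟩
  choose jz hjz using hcov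
  choose V g hV hw _hr using fun z : T => m.exists_chart_pullback hH0 F (jz z) p
  have hz : ∀ z, z ∈ V z := fun z => (Set.ext_iff.mp (hV z) z).mpr (hjz z)
  let 𝒰 : T.OpenCover := {
    I₀ := T
    X := fun z => (V z).toScheme
    f := fun z => (V z).ι
    mem₀ := by
      rw [Scheme.presieve₀_mem_precoverage_iff]
      exact ⟨fun z => ⟨z, ⟨z, hz z⟩, rfl⟩, fun z => inferInstance⟩ }
  refine GrothendieckTopology.superset_covering _ ?_ 𝒰.mem_grothendieckTopology
  rw [Sieve.ofArrows, Sieve.generate_le_iff]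
  rintro - - ⟨z⟩
  refine ⟨(Sigma.ι (fun j => yoneda.obj (Spec (CommRingCat.of (F.U j)))) (jz z)).app
    (op (V z).toScheme) (g z), ?_⟩
  rw [← NatTrans.comp_app_apply, Sigma.ι_desc]
  exact (hw z).trans (congrArg (Cls.map (hH0 := hH0) (V z).ι) (Cls.mk_out (hH0 := hH0) x))

end Fermat.Agent.Jac.CurveModel
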