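import Fermat.Agent.Jac.Rep.OpenChart
import Fermat.Prelude.Def_AlgebraicGeometry_RepresentsRelSubPic

/-!
# A cut of the rigidified Picard functor with a chart family is representable
-/

set_option autoImplicit false
set_option linter.style.haveILetI false

noncomputable section

universe u

open CategoryTheory CategoryTheory.Limits AlgebraicGeometry Opposite TopologicalSpace
  NeronModelInfra AlgebraicGeometry.RelPicard GoodReductionJacobian

namespace Fermat.Agent.Jac.CurveModel

variable {k : Type u} [Field k] {C : Scheme.{u}} {c : C ⟶ Spec (CommRingCat.of k)}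
  {ε : SchemeHomOver (𝟙 (Spec (CommRingCat.of k))) c}
variable (m : CurveModel c ε) (hH0 : m.D.H0Const) {Z : UnitFieldCond m.D}

/-- Existence of a scheme representing the cut, covered by the charts. -/
theorem exists_representation (hH0 : m.D.H0Const) {Z : UnitFieldCond m.D}
    (F : ChartFamily m.D Z) :
    ∃ Dj : RelativePic0Designation k c,
      Nonempty (RepresentsRelSubPic c ε (m.cut Z) Dj) ∧ LocallyOfFiniteType Dj.toBase := by
  have hf := m.isOpenImmersion_chartHom hH0 F
  have := m.isLocallySurjective_chartHom hH0 F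
  let Fsh : Sheaf Scheme.zariskiTopology.{u} (Type u) :=
    ⟨m.cutFunctor hH0 Z, m.isSheaf_cutFunctor hH0 Z⟩
  let hrep := Scheme.LocalRepresentability.representableBy (F := Fsh) (f := m.chartHom hH0 F) hf
  let P := (Scheme.LocalRepresentability.glueData (F := Fsh) (f := m.chartHom hH0 F) hf).glued
  let u₀ : m.Cls hH0 Z P := hrep.homEquiv (𝟙 P)
  let u := Cls.out u₀
  have hu : ∀ {W : Scheme.{u}} (g : W ⟶ P),
      (hrep.homEquiv g : m.Cls hH0 Z W) = Cls.mk (u.pull g) := fun {W} g => by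
    rw [← Cls.map_mk, Cls.mk_out]
    exact hrep.homEquiv_eq g
  -- the zero section
  let one : CutPair m Z (Spec (CommRingCat.of k)) :=
    ⟨𝟙 _, RigidifiedLineBundle.unit _, (m.cut Z).unit_mem _⟩
  let z₀ : Spec (CommRingCat.of k) ⟶ P := hrep.homEquiv.symm (Cls.mk one : m.Cls hH0 Z _)
  have hz₀ : CutPair.Rel (u.pull z₀) one := by
    refine (Cls.mk_eq_mk_iff (hH0 := hH0)).mp ?_
    rw [← hu]
    exact Equiv.apply_symm_apply _ _
  let Dj : RelativePic0Designation k c := ⟨P, u.t, z₀, hz₀.1⟩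
  have huniv : ∀ {T : Scheme.{u}} (t : T ⟶ Spec (CommRingCat.of k))
      (M : RigidifiedLineBundle c ε t), (m.cut Z).P t M →
      ∃! g : SchemeHomOver t u.t, Nonempty ((u.M.pullbackAlong g).L ≅ M.L) := by
    intro T t M hM
    let g₀ : T ⟶ P := hrep.homEquiv.symm (Cls.mk ⟨t, M, hM⟩ : m.Cls hH0 Z T)
    have h0 : CutPair.Rel (u.pull g₀) ⟨t, M, hM⟩ := by
      refine (Cls.mk_eq_mk_iff (hH0 := hH0)).mp ?_
      rw [← hu]
      exact Equiv.apply_symm_apply _ _
    refine ⟨⟨g₀, h0.1⟩, m.nonempty_iso_of_forall_classAt hH0 fun R _ _ s => ?_, fun g hg => ?_⟩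
    · rw [m.classAt_pullbackAlong]
      have ha : s.1 ≫ (u.pull g₀).t = structMap k R := by rw [h0.1]; exact s.2
      exact (CutPair.classAt_pull g₀ u s.1 ha).symm.trans (h0.2 R s.1 ha s.2)
    · refine Subtype.ext ((Equiv.eq_symm_apply _).mpr ?_)
      rw [hu]
      refine Cls.mk_eq_mk_iff.mpr ⟨g.2, fun R _ _ s ha hb => ?_⟩
      refine (CutPair.classAt_pull g.1 u s ha).trans ?_
      exact ((m.classAt_congr hg ⟨s, hb⟩).symm.trans (m.classAt_pullbackAlong u.M g ⟨s, hb⟩)).symm
  have hzero : Nonempty ((u.M.pullbackAlong (⟨z₀, hz₀.1⟩ : SchemeHomOver (𝟙 _) u.t)).L ≅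
      (RigidifiedLineBundle.unit (c := c) (ε := ε) (𝟙 _)).L) := by
    refine m.nonempty_iso_of_forall_classAt hH0 fun R _ _ s => ?_
    rw [m.classAt_pullbackAlong]
    have ha : s.1 ≫ (u.pull z₀).t = structMap k R := by rw [hz₀.1]; exact s.2
    exact (CutPair.classAt_pull z₀ u s.1 ha).symm.trans (hz₀.2 R s.1 ha s.2)
  refine ⟨Dj, ⟨⟨u.M, u.mem, huniv, hzero⟩⟩, ?_⟩
  show LocallyOfFiniteType u.t
  let 𝒰 := (Scheme.LocalRepresentability.glueData (F := Fsh) (f := m.chartHom hH0 F) hf).openCover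
  have : ∀ i, IsAffine (𝒰.X i) := fun (i : F.ι) =>
    inferInstanceAs (IsAffine (Spec (CommRingCat.of (F.U i))))
  refine (HasRingHomProperty.iff_of_source_openCover (P := @LocallyOfFiniteType) 𝒰).mpr
    fun (i : F.ι) => ?_
  have hi : Scheme.LocalRepresentability.toGlued (F := Fsh) (f := m.chartHom hH0 F) hf i ≫ u.t =
      structMap k (F.U i) := by
    have h : Cls.mk (u.pull (Scheme.LocalRepresentability.toGlued
        (F := Fsh) (f := m.chartHom hH0 F) hf i)) = (Cls.mk (m.chartPair F i) : m.Cls hH0 Z _) := by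
      rw [← hu]
      exact (Scheme.LocalRepresentability.yonedaGluedToSheaf_app_toGlued (F := Fsh)
        (f := m.chartHom hH0 F) hf (i := i)).trans (yonedaEquiv.apply_symm_apply _)
    exact ((Cls.mk_eq_mk_iff (hH0 := hH0)).mp h).1
  show ((Scheme.LocalRepresentability.toGlued (F := Fsh)
    (f := m.chartHom hH0 F) hf i ≫ u.t).appTop).hom.FiniteType
  rw [hi]
  refine (HasRingHomProperty.iff_of_isAffine (P := @LocallyOfFiniteType)).mp ?_
  refine (HasRingHomProperty.Spec_iff (P := @LocallyOfFiniteType)).mpr ?_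
  exact (RingHom.finiteType_algebraMap).mpr (F.finiteType i)

end Fermat.Agent.Jac.CurveModel
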