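import Fermat.Agent.Jac.Rep.Group

/-!
# The representing scheme of the degree zero classes is separated
-/

set_option autoImplicit false
set_option linter.unusedSectionVars false

noncomputable section

universe u

open CategoryTheory CategoryTheory.Limits AlgebraicGeometry NeronModelInfra AlgebraicGeometry.RelPicard
  GoodReductionJacobian

namespace Fermat.Agent.Jac

variable {k : Type u} [Field k] {C : Scheme.{u}} {c : C ⟶ Spec (CommRingCat.of k)}

/-- A rational point is a closed immersion. -/
theorem isClosedImmersion_zeroSection (J : RelativePic0Designation k c) :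
    IsClosedImmersion J.zeroSection :=
  have : Subsingleton (Spec (CommRingCat.of k)) :=
    (inferInstance : Subsingleton (PrimeSpectrum k))
  isClosedImmersion_of_comp_eq_id J.toBase J.zeroSection J.zeroSection_toBase

namespace CurveModel

variable [IsAlgClosed k] {ε : SchemeHomOver (𝟙 (Spec (CommRingCat.of k))) c} (m : CurveModel c ε)
  {J : RelativePic0Designation k c}
  (h : RepresentsRelSubPic c ε (m.cut (degZero m.D)) J) [LocallyOfFiniteType J.toBase]

include h

/-- The diagonal is the base change of the zero section along subtraction. -/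
theorem isSeparated : IsSeparated J.toBase := by
  obtain ⟨σ, hσ⟩ := m.exists_sub h
  let zero : SchemeHomOver (𝟙 (Spec (CommRingCat.of k))) J.toBase :=
    ⟨J.zeroSection, J.zeroSection_toBase⟩
  let δ : SchemeHomOver J.toBase (pullback.fst J.toBase J.toBase ≫ J.toBase) :=
    ⟨pullback.diagonal J.toBase, by rw [← Category.assoc, pullback.diagonal_fst, Category.id_comp]⟩
  have w : pullback.diagonal J.toBase ≫ σ.1 = J.toBase ≫ J.zeroSection := by
    have e : postComp σ δ = postComp zero ⟨J.toBase, Category.comp_id _⟩ := by
      refine m.hom_ext_pointClass h fun R _ _ s => ?_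
      rw [postComp_assoc σ δ s, hσ, postComp_assoc, m.pointClass_zero h]
      have e1 : postComp (⟨pullback.fst J.toBase J.toBase, rfl⟩ :
          SchemeHomOver (pullback.fst J.toBase J.toBase ≫ J.toBase) J.toBase) (postComp δ s) = s :=
        Subtype.ext (by
          show (s.1 ≫ pullback.diagonal J.toBase) ≫ pullback.fst J.toBase J.toBase = s.1
          rw [Category.assoc, pullback.diagonal_fst, Category.comp_id])
      have e2 : postComp (⟨pullback.snd J.toBase J.toBase, pullback.condition.symm⟩ :
          SchemeHomOver (pullback.fst J.toBase J.toBase ≫ J.toBase) J.toBase) (postComp δ s) = s :=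
        Subtype.ext (by
          show (s.1 ≫ pullback.diagonal J.toBase) ≫ pullback.snd J.toBase J.toBase = s.1
          rw [Category.assoc, pullback.diagonal_snd, Category.comp_id])
      rw [e1, e2, mul_inv_cancel]
    exact congrArg Subtype.val e
  have key : ∀ (T : Scheme.{u}) (a : T ⟶ pullback J.toBase J.toBase)
      (b : T ⟶ Spec (CommRingCat.of k)), a ≫ σ.1 = b ≫ J.zeroSection →
      a ≫ pullback.fst _ _ ≫ J.toBase = b ∧ a ≫ pullback.fst _ _ = a ≫ pullback.snd _ _ := by
    intro T a b hab
    have hb : a ≫ pullback.fst _ _ ≫ J.toBase = b := by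
      have := congrArg (· ≫ J.toBase) hab
      simp only [Category.assoc, σ.2, J.zeroSection_toBase, Category.comp_id] at this
      exact this
    refine ⟨hb, congrArg Subtype.val (show
      postComp ⟨pullback.fst _ _, rfl⟩ (⟨a, hb⟩ : SchemeHomOver b _) =
        postComp ⟨pullback.snd _ _, pullback.condition.symm⟩ ⟨a, hb⟩ from
      m.hom_ext_pointClass h fun R _ _ s => mul_inv_eq_one.mp ?_)⟩
    rw [postComp_assoc _ _ s, postComp_assoc _ _ s, ← hσ]
    have e : postComp σ (postComp ⟨a, hb⟩ s) =
        postComp zero (postComp ⟨b, Category.comp_id _⟩ s) := Subtype.ext (by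
      show (s.1 ≫ a) ≫ σ.1 = (s.1 ≫ b) ≫ J.zeroSection
      rw [Category.assoc, hab, Category.assoc])
    rw [e]
    exact m.pointClass_zero h _
  have hp : IsPullback (pullback.diagonal J.toBase) J.toBase σ.1 J.zeroSection := by
    refine ⟨⟨w⟩, ⟨PullbackCone.IsLimit.mk w (fun s => s.fst ≫ pullback.fst _ _) ?_ ?_ ?_⟩⟩
    · intro s
      obtain ⟨-, h2⟩ := key _ s.fst s.snd s.condition
      refine pullback.hom_ext ?_ ?_
      · rw [Category.assoc, pullback.diagonal_fst, Category.comp_id]
      · rw [Category.assoc, pullback.diagonal_snd, Category.comp_id]; exact h2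
    · intro s
      rw [Category.assoc]
      exact (key _ s.fst s.snd s.condition).1
    · intro s l hl _
      rw [← hl, Category.assoc, pullback.diagonal_fst, Category.comp_id]
  have := isClosedImmersion_zeroSection J
  exact ⟨MorphismProperty.of_isPullback hp.flip (isClosedImmersion_zeroSection J)⟩

end CurveModel

end Fermat.Agent.Jac
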