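import Fermat.Agent.Jac.Rep.Points
import Fermat.Agent.Jac.Rep.DegCond
import Fermat.Agent.Jac.Alg.Lift
import Mathlib.AlgebraicGeometry.Morphisms.Smooth
import Mathlib.AlgebraicGeometry.Morphisms.FiniteType
import Mathlib.RingTheory.Smooth.Basic

/-!
# The representing scheme of the degree zero classes is smooth
-/

set_option autoImplicit false

noncomputable section

universe u

open CategoryTheory CategoryTheory.Limits AlgebraicGeometry NeronModelInfra AlgebraicGeometry.RelPicard
  GoodReductionJacobian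

namespace Fermat.Agent.Jac

variable {k : Type u} [Field k]

theorem exists_comp_eq_of_square_zero {B K : Type u} [CommRing B] [Algebra k B] [Field K]
    [Algebra k K] (I : Ideal B) (hI : I ^ 2 = ⊥) (φ : B →ₐ[k] K) :
    ∃ φ' : (B ⧸ I) →ₐ[k] K, φ'.comp (Ideal.Quotient.mkₐ k I) = φ := by
  refine ⟨Ideal.Quotient.liftₐ I φ fun a ha => ?_, AlgHom.ext fun b => rfl⟩
  have h : a ^ 2 = 0 := by
    rw [← Ideal.mem_bot, ← hI]
    exact Ideal.pow_mem_pow ha 2
  exact pow_eq_zero_iff two_ne_zero |>.mp (by rw [← map_pow, h, map_zero])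

theorem FieldCond.onFibres_of_map_quotient {D : CurveData.{u} k} {Z : FieldCond D} {B : Type u}
    [CommRing B] [Algebra k B] (I : Ideal B) (hI : I ^ 2 = ⊥) {x : LinePic D B}
    (h : Z.OnFibres (LinePic.map (Ideal.Quotient.mkₐ k I) x)) : Z.OnFibres x := by
  intro K _ _ φ
  obtain ⟨φ', rfl⟩ := exists_comp_eq_of_square_zero I hI φ
  rw [← LinePic.map_map]
  exact h K φ'

variable {C : Scheme.{u}} {c : C ⟶ Spec (CommRingCat.of k)}
  {ε : SchemeHomOver (𝟙 (Spec (CommRingCat.of k))) c}

namespace CurveModel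

variable (m : CurveModel c ε) {Z : UnitFieldCond m.D} {J : RelativePic0Designation k c}
variable (h : RepresentsRelSubPic c ε (m.cut Z) J)

include h in
/-- Infinitesimal lifting of points of a representing scheme. -/
theorem exists_lift_point {B : Type u} [CommRing B] [Algebra k B] (I : Ideal B) (hI : I ^ 2 = ⊥)
    (s₀ : SchemeHomOver (structMap k (B ⧸ I)) J.toBase) :
    ∃ s : SchemeHomOver (structMap k B) J.toBase,
      postComp s (specHomOver (Ideal.Quotient.mkₐ k I)) = s₀ := by
  obtain ⟨x, hx, hmap⟩ := LinePic.exists_lift_rigid (π := Ideal.Quotient.mkₐ k I)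
    (Ideal.Quotient.mkₐ_surjective k I)
    (by rw [show RingHom.ker (Ideal.Quotient.mkₐ k I) = I from Ideal.Quotient.mkₐ_ker k I, hI])
    (m.pointClass_mem_rigid h s₀)
  obtain ⟨s, hs⟩ := m.exists_pointClass_eq h hx
    (FieldCond.onFibres_of_map_quotient I hI (by rw [hmap]; exact m.pointClass_onFibres h s₀))
  exact ⟨s, m.pointClass_injective h (by rw [← m.map_pointClass, hs, hmap])⟩

include h in
theorem smooth [LocallyOfFiniteType J.toBase] : Smooth J.toBase := by
  have : IsZariskiLocalAtSource @Smooth.{u} := HasRingHomProperty.instIsZariskiLocalAtSource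
  refine IsZariskiLocalAtSource.of_openCover (P := @Smooth.{u}) J.P.affineCover fun i => ?_
  suffices key : ∀ (S : CommRingCat.{u}) (g : Spec S ⟶ J.P), IsOpenImmersion g →
      Smooth (g ≫ J.toBase) from key _ (J.P.affineCover.f i) (J.P.affineCover.map_prop i)
  intro S g _
  obtain ⟨ψ, hψ⟩ := Spec.map_surjective (g ≫ J.toBase)
  rw [← hψ, HasRingHomProperty.Spec_iff (P := @Smooth), RingHom.smooth_def]
  have hft : ψ.hom.FiniteType :=
    (HasRingHomProperty.Spec_iff (P := @LocallyOfFiniteType)).mp (hψ ▸ inferInstance)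
  refine ⟨?_, RingHom.FinitePresentation.of_finiteType.mp hft⟩
  let : Algebra k S := ψ.hom.toAlgebra
  refine Algebra.FormallySmooth.of_comp_surjective fun B _ _ I hI f => ?_
  let s₀ : SchemeHomOver (structMap k (B ⧸ I)) J.toBase :=
    postComp ⟨g, hψ.symm⟩ (specHomOver f)
  obtain ⟨s, hs⟩ := m.exists_lift_point h I hI s₀
  have hval : Spec.map (CommRingCat.ofHom (Ideal.Quotient.mkₐ k I).toRingHom) ≫ s.1 =
      Spec.map (CommRingCat.ofHom f.toRingHom) ≫ g :=
    congrArg Subtype.val hs
  have hrange : Set.range s.1 ⊆ Set.range g := by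
    rintro _ ⟨p, rfl⟩
    have hle : I ≤ p.asIdeal := fun a ha => p.isPrime.mem_of_pow_mem 2 (by
      rw [show a ^ 2 = 0 from (Ideal.mem_bot.mp (hI ▸ Ideal.pow_mem_pow ha 2))]
      exact zero_mem _)
    obtain ⟨q, hq⟩ : p ∈ Set.range (PrimeSpectrum.comap (Ideal.Quotient.mk I)) := by
      rw [range_comap_of_surjective _ _ Ideal.Quotient.mk_surjective, Ideal.mk_ker]
      exact hle
    subst hq
    exact ⟨(Spec.map (CommRingCat.ofHom f.toRingHom)).base q,
      (congrArg (fun e : Spec (CommRingCat.of (B ⧸ I)) ⟶ J.P => e.base q) hval).symm⟩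
  obtain ⟨f', hf'⟩ := exists_specHomOver_eq (k := k) (R := S) (R' := B)
    ⟨IsOpenImmersion.lift g s.1 hrange, by
      show _ ≫ Spec.map ψ = _
      rw [hψ, ← Category.assoc, IsOpenImmersion.lift_fac]
      exact s.2⟩
  refine ⟨f', ?_⟩
  have hl : Spec.map (CommRingCat.ofHom f'.toRingHom) = IsOpenImmersion.lift g s.1 hrange :=
    (congrArg Subtype.val hf').symm
  have hcomp : Spec.map (CommRingCat.ofHom ((Ideal.Quotient.mkₐ k I).comp f').toRingHom) =
      Spec.map (CommRingCat.ofHom f.toRingHom) := by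
    rw [← cancel_mono g, show CommRingCat.ofHom ((Ideal.Quotient.mkₐ k I).comp f').toRingHom =
      CommRingCat.ofHom f'.toRingHom ≫ CommRingCat.ofHom (Ideal.Quotient.mkₐ k I).toRingHom
      from rfl, Spec.map_comp, Category.assoc, hl, IsOpenImmersion.lift_fac, hval]
  exact AlgHom.ext fun a =>
    congrArg (fun e : S ⟶ CommRingCat.of (B ⧸ I) => e.hom a) (Spec.map_injective hcomp)

end CurveModel

end Fermat.Agent.Jac
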