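import Fermat.Prelude.Def_AlgebraicGeometry_RepresentsRelSubPic

/-!
# Representing objects of equivalent cuts
-/

set_option autoImplicit false

universe u

open CategoryTheory AlgebraicGeometry NeronModelInfra AlgebraicGeometry.RelPicard GoodReductionJacobian

namespace Fermat.Agent.Jac

variable {R : Type u} [CommRing R] {C : Scheme.{u}} {c : C ⟶ Spec (CommRingCat.of R)}
  {ε : SchemeHomOver (𝟙 (Spec (CommRingCat.of R))) c} {P Q : SubPicCondition c ε}
  {D : RelativePic0Designation R c}

/-- Transport a representing object along an equivalence of cuts. -/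
def representsOfIff (h : RepresentsRelSubPic c ε P D)
    (hPQ : ∀ {T : Scheme.{u}} (t : T ⟶ Spec (CommRingCat.of R)) (M : RigidifiedLineBundle c ε t),
      P.P t M ↔ Q.P t M) : RepresentsRelSubPic c ε Q D where
  poincare := h.poincare
  poincare_mem := (hPQ _ _).mp h.poincare_mem
  univ t M hM := h.univ t M ((hPQ t M).mpr hM)
  zero := h.zero

end Fermat.Agent.Jac
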